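/-
PROJECT M (S15 chain), block (K-N), leaf `LevelOne` (helper1; branch-only):
**`X₀(1)` HAS GENUS ZERO AND `J₀(1) = 0`.**

* `card_quot_gamma0_one`   : `[SL₂(ℤ) : Γ₀(1)] = 1`;
* `finrank_jgen_one`       : `[ℚ̄(X₀(1)) : ℚ̄(j)] = 1`;
* `genus_eq_zero_of_degree_one` (abstract): a function field with Riemann's theorem at genus `g`
  and a function `x` whose pole divisor has degree one has `g = 0`
  (`1, x, …, xⁿ ∈ L(n (x)_∞)`, so `n + 1 ≤ ℓ(n (x)_∞) = n + 1 - g` for `n` large);
* `riemannHyp_levelOne`    : `RiemannHyp ℚ̄ (modularFunctionFieldBar 1) 0`;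
* `subsingleton_jZero_one` : `Subsingleton (JZero 1)`.

Consumers: the glue of `S35.NewSigmaX0.newSigma_of_frobZ` at `M' = 1` (the degeneracy maps
`alphaPush`, `betaPush` of level `N = 1 · N` land in `JZero 1 = 0`).
-/
import Mathlib
import Fermat.Agent.S17.GenusZero
import Fermat.Agent.S18.A.Hurwitz
import Fermat.Agent.S18.A.Instances
import Fermat.Agent.S18.A.FibreSep
import Fermat.Agent.S37.Deuring.FundIneq

set_option autoImplicit false
set_option linter.unusedSectionVars false
set_option linter.style.haveILetI false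

noncomputable section

namespace Fermat.Agent.S15.KN.LevelOne

open AlgebraicCurve ModularCurve IntermediateField
open Fermat.Agent.S18.NonSpecial Fermat.Agent.S37.Deuring.Core
open scoped MatrixGroups

local notation "Kb" => AlgebraicClosure ℚ

/-! ### the abstract statement -/

section Abstract

variable {K : Type*} [Field K] {F : Type*} [Field F] [Algebra K F]

/-- the powers `1, x, …, xⁿ` of a transcendental element are linearly independent -/
theorem linearIndependent_pow {x : F} (hx : Transcendental K x) (n : ℕ) :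
    LinearIndependent K (fun i : Fin (n + 1) => x ^ (i : ℕ)) := by
  rw [Fintype.linearIndependent_iff]
  intro c hc i
  -- the polynomial `∑ c i X ^ i`
  set p : Polynomial K := ∑ j : Fin (n + 1), Polynomial.monomial (j : ℕ) (c j) with hp
  have hpe : Polynomial.aeval x p = 0 := by
    rw [hp, map_sum]
    rw [← hc]
    refine Finset.sum_congr rfl fun j _ => ?_
    rw [Polynomial.aeval_monomial, Algebra.smul_def]
  have hp0 : p = 0 := by
    by_contra hne
    exact hx ⟨p, hne, hpe⟩
  have hcoef : p.coeff (i : ℕ) = c i := by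
    rw [hp, Polynomial.finsetSum_coeff]
    rw [Finset.sum_eq_single i]
    · rw [Polynomial.coeff_monomial, if_pos rfl]
    · intro j _ hji
      rw [Polynomial.coeff_monomial, if_neg]
      exact fun h => hji (Fin.ext h)
    · intro h
      exact absurd (Finset.mem_univ i) h
  rw [← hcoef, hp0, Polynomial.coeff_zero]

/-- **Genus zero from a function of degree one.** -/
theorem genus_eq_zero_of_degree_one {g : ℕ} (H : RiemannHyp K F g) {x : F}
    (hx : Transcendental K x) {D : Divisor K F} (hD : IsPoleDiv x D)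
    (hdeg : Divisor.degree D = 1) : g = 0 := by
  obtain ⟨c, hc⟩ := H.riemann_eq
  set n : ℕ := c.toNat with hn
  have hcn : c ≤ (n : ℤ) := Int.self_le_toNat c
  have hdegn : Divisor.degree (n • D) = (n : ℤ) := by
    rw [map_nsmul, hdeg, nsmul_eq_mul, mul_one]
  have hell := hc (n • D) (by rw [hdegn]; exact hcn)
  rw [hdegn] at hell
  -- `n + 1` independent elements of `L(n D)`
  have hmem : ∀ i : Fin (n + 1), x ^ (i : ℕ) ∈ riemannRochSpace (n • D) := by
    intro i
    have h1 := Fermat.Agent.S37.Deuring.FundIneq.pow_mem_rr hD (i : ℕ)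
    refine riemannRochSpace_mono ?_ h1
    intro v
    rw [Finsupp.smul_apply, Finsupp.smul_apply]
    have hnn : 0 ≤ D v := hD.nonneg v
    have hi : (i : ℕ) ≤ n := Nat.lt_succ_iff.mp i.2
    exact smul_le_smul_of_nonneg_right hi hnn
  have hli : LinearIndependent K
      (fun i : Fin (n + 1) => (⟨x ^ (i : ℕ), hmem i⟩ : riemannRochSpace (n • D))) := by
    have h0 := linearIndependent_pow hx n
    refine LinearIndependent.of_comp (riemannRochSpace (n • D)).subtype ?_
    exact h0
  haveI := H.finite (n • D)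
  have hcard := hli.fintype_card_le_finrank
  rw [Fintype.card_fin] at hcard
  have h2 : ((n + 1 : ℕ) : ℤ) ≤ (ell (n • D) : ℤ) := by
    exact_mod_cast hcard
  rw [hell] at h2
  push_cast at h2
  omega

end Abstract

/-! ### level one -/

/-- `Γ₀(1)` is everything -/
theorem gamma0_one : CongruenceSubgroup.Gamma0 1 = ⊤ := by
  ext A
  simp only [CongruenceSubgroup.Gamma0_mem, Subgroup.mem_top, iff_true]
  exact Subsingleton.elim _ _

/-- `[SL₂(ℤ) : Γ₀(1)] = 1` -/
theorem card_quot_gamma0_one : Nat.card (SL(2, ℤ) ⧸ CongruenceSubgroup.Gamma0 1) = 1 := by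
  rw [← Subgroup.index_eq_card, gamma0_one, Subgroup.index_top]

/-- `[ℚ̄(X₀(1)) : ℚ̄(j)] = 1` -/
theorem finrank_jgen_one :
    Module.finrank Kb⟮Fermat.Agent.S24.DegreeAlg.jgen 1⟯ (modularFunctionFieldBar 1) = 1 := by
  rw [Fermat.Agent.S18.A.Instances.finrank_jgen, card_quot_gamma0_one]

/-- **`X₀(1)` has genus zero** (in the sense of Riemann's theorem). -/
theorem riemannHyp_levelOne : RiemannHyp Kb (modularFunctionFieldBar 1) 0 := by
  obtain ⟨g, HR, -⟩ := Fermat.Agent.S18.A.Hurwitz.exists_genus_FL 1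
  have hx := Fermat.Agent.S18.A.Instances.isFF_jgen 1
  have hsep := Fermat.Agent.S18.A.Instances.isSeparable_jgen 1
  have hD : IsPoleDiv (Fermat.Agent.S24.DegreeAlg.jgen 1)
      (Fermat.Agent.S18.A.FibreSep.poleDiv hx hsep) := fun v => by
    rw [Fermat.Agent.S18.A.FibreSep.poleDiv_apply, max_comm]
  have hdeg : Divisor.degree (Fermat.Agent.S18.A.FibreSep.poleDiv hx hsep) = 1 := by
    rw [Fermat.Agent.S18.A.FibreSep.degree_poleDiv, finrank_jgen_one, Nat.cast_one]
  have hg : g = 0 := genus_eq_zero_of_degree_one HR hx.transcendental hD hdeg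
  rw [hg] at HR
  exact HR

/-- **`J₀(1) = 0`.** -/
theorem subsingleton_jZero_one : Subsingleton (JZero 1) :=
  Fermat.Agent.S17.GenusZero.subsingleton_jZero 1 riemannHyp_levelOne

/-- every element of `J₀(1)` is zero -/
theorem jZero_one_eq_zero (y : JZero 1) : y = 0 :=
  haveI := subsingleton_jZero_one
  Subsingleton.elim _ _

end Fermat.Agent.S15.KN.LevelOne
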