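/-
PROJECT M (S15), block [S], leaf (S-f), abstract core (helper13): THE [D]-COUNT FOR A MODULE ON
WHICH THE INERTIA GROUP AT `N` ACTS TRIVIALLY.

On the bytes of block [D] (helper18 `S15/D/{Step,UnitCond,Flag,Classes}`, helper28 `S15/D/Piece`):

* `card_le_of_inertia_trivial` : an ordinary datum `(A, A0)` with a flag, smooth, on which `I_N` acts
  trivially, satisfies `|A| ≤ |A0| * |H⁰(ℚ, A)|`;
* `card_le_of_half` : if moreover `|A0|² ≤ C |A|` and `|H⁰(ℚ, A)| ≤ B` then `|A| ≤ C B²`;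
* `false_of_family` : hence NO family `(A_k, A0_k)` of such data with `|A_k|` unbounded exists:
  this is the contradiction of (S-f) ("`s = 1` on `ρ_χ`" is impossible), with the family
  `X_k = M / P^k M`, `M` the `χ`-eigenlattice.
-/
import Fermat.Agent.S15.D.Classes
import Fermat.Agent.S15.D.Piece

set_option autoImplicit false
set_option linter.style.haveILetI false

namespace Fermat.Agent.S15.KN.RChi

open Fermat.Agent.S56.Coh Fermat.Agent.CFT.LC Fermat.Agent.CFT.Bridge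
  Fermat.Agent.CFT.LocalBridge
open Fermat.Agent.S15.D

variable {k : Type} [CommRing k] {P N : ℕ} [Fact P.Prime] [Fact N.Prime]

/-- the flag hypothesis of `S15/D/Piece.descent`, as a predicate -/
def HasFlag (P : ℕ) [Fact P.Prime] (A : Rep.{0} k GQ) (A0 : Submodule k A) : Prop :=
  ∃ n : ℕ, ∃ F : ℕ → Submodule k A, F 0 = ⊥ ∧ F n = ⊤ ∧ (∀ m, F m ≤ F (m + 1)) ∧
    (∀ (m : ℕ) (s : GQ), ∀ u ∈ F m, A.ρ s u ∈ F m) ∧
    ∀ m < n, Nat.card (F (m + 1)) = P * Nat.card (F m) ∧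
      (((∀ s : GQ, ∀ u ∈ F (m + 1), A.ρ s u - u ∈ F m) ∧ F (m + 1) ⊓ A0 ≤ F m) ∨
        ((∀ s : GQ, ∀ u ∈ F (m + 1), A.ρ s u - ExtCitation.cycloExp P s • u ∈ F m) ∧
          F (m + 1) ≤ F m ⊔ A0))

/-- **The [D]-count with trivial inertia at `N`**: `|A| ≤ |A0| * |H⁰(ℚ, A)|`. -/
theorem card_le_of_inertia_trivial (hNP : N ≠ P) (A : Rep.{0} k GQ) [Finite A]
    (A0 : Submodule k A) (h : OrdDatum P N A A0) (hflag : HasFlag P A A0)
    (hsm : ∀ a : A, IsLC₀ levelsAll A a) (hN : ∀ s ∈ Iq N, ∀ x : A, A.ρ s x = x) :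
    Nat.card A ≤ Nat.card A0 * Nat.card (invG A) := by
  have hg : Good P N A A0 := Piece.descent hNP A A0 h hflag
  have hcl := Good.classes h hsm hg
  have htop : invI N A = ⊤ := by
    rw [eq_top_iff]
    intro x _
    exact fun s hs => hN s hs x
  have hcard : Nat.card (invI N A) = Nat.card A := by
    rw [htop]
    exact Nat.card_congr (Submodule.topEquiv (R := k) (M := A)).toEquiv
  rw [hcard] at hcl
  have hfin : Finite ↥(SelD P A A0) := hg.1
  have hfinq : Finite (↥(SelD P A A0) ⧸ (B1g A).comap (SelD P A A0).subtype) :=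
    Quotient.finite _
  have hpos : 0 < Nat.card (↥(SelD P A A0) ⧸ (B1g A).comap (SelD P A A0).subtype) :=
    Nat.card_pos
  calc Nat.card A = 1 * Nat.card A := (one_mul _).symm
    _ ≤ Nat.card (↥(SelD P A A0) ⧸ (B1g A).comap (SelD P A A0).subtype) * Nat.card A :=
        Nat.mul_le_mul_right _ hpos
    _ ≤ Nat.card A0 * Nat.card (invG A) := hcl

/-- If moreover `|A0|² ≤ C |A|` and `|H⁰(ℚ, A)| ≤ B`, then `|A| ≤ C B²`. -/
theorem card_le_of_half (hNP : N ≠ P) (A : Rep.{0} k GQ) [Finite A]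
    (A0 : Submodule k A) (h : OrdDatum P N A A0) (hflag : HasFlag P A A0)
    (hsm : ∀ a : A, IsLC₀ levelsAll A a) (hN : ∀ s ∈ Iq N, ∀ x : A, A.ρ s x = x)
    {C B : ℕ} (hhalf : Nat.card A0 ^ 2 ≤ C * Nat.card A) (hB : Nat.card (invG A) ≤ B) :
    Nat.card A ≤ C * B ^ 2 := by
  have h1 := card_le_of_inertia_trivial hNP A A0 h hflag hsm hN
  have hpos : 0 < Nat.card A := Nat.card_pos
  have h2 : Nat.card A ^ 2 ≤ (C * B ^ 2) * Nat.card A := by
    calc Nat.card A ^ 2 ≤ (Nat.card A0 * Nat.card (invG A)) ^ 2 := Nat.pow_le_pow_left h1 2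
      _ = Nat.card A0 ^ 2 * Nat.card (invG A) ^ 2 := mul_pow _ _ _
      _ ≤ (C * Nat.card A) * B ^ 2 := Nat.mul_le_mul hhalf (Nat.pow_le_pow_left hB 2)
      _ = (C * B ^ 2) * Nat.card A := by ring
  rw [pow_two] at h2
  exact Nat.le_of_mul_le_mul_right h2 hpos

/-- **The contradiction of (S-f)**: there is no family of ordinary data with flags, smooth, with
trivial inertia at `N`, `|A0_k|² ≤ C |A_k|`, bounded `H⁰` and unbounded cardinality. -/
theorem false_of_family (hNP : N ≠ P) (A : ℕ → Rep.{0} k GQ) (hfin : ∀ j, Finite (A j))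
    (A0 : ∀ j, Submodule k (A j)) (h : ∀ j, OrdDatum P N (A j) (A0 j))
    (hflag : ∀ j, HasFlag P (A j) (A0 j)) (hsm : ∀ j, ∀ a : A j, IsLC₀ levelsAll (A j) a)
    (hN : ∀ j, ∀ s ∈ Iq N, ∀ x : A j, (A j).ρ s x = x)
    {C B : ℕ} (hhalf : ∀ j, Nat.card (A0 j) ^ 2 ≤ C * Nat.card (A j))
    (hB : ∀ j, Nat.card (invG (A j)) ≤ B)
    (hunb : ∀ n : ℕ, ∃ j, n < Nat.card (A j)) : False := by
  obtain ⟨j, hj⟩ := hunb (C * B ^ 2)
  haveI := hfin j
  have := card_le_of_half hNP (A j) (A0 j) (h j) (hflag j) (hsm j) (hN j) (hhalf j) (hB j)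
  omega

end Fermat.Agent.S15.KN.RChi
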