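/-
PROJECT M (S15), block [S], leaf (S-f), part 2 (helper13): THE [D]-COUNT FOR A STABLE SUBMODULE ON
WHICH THE INERTIA GROUP AT `N` ACTS TRIVIALLY.

On the bytes of [D] (helper18, helper28), helper2's `S15/G/Flag.exists_flag` and `KN/RChi`:

* `HasCoarse P A A0` : helper2's input of `exists_flag` (coarse filtration + labels) for `(A, A0)`,
  with `χ = ExtCitation.cycloChar P`, `e = ExtCitation.cycloExp P`, as ONE predicate, in uniform
  form (one integer per scalar, one integer for the action of `s₀` on `A0`);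
* `HasCoarse.hasFlag` : it gives the flag of the descent;
* `HasCoarse.subRep`  : it RESTRICTS to every Galois-stable submodule `W` (with `A0 ∩ W`);
* **`card_sub_le`** : `(A, A0)` an ordinary datum with coarse data, smooth; `W` a Galois-stable
  submodule on which `I_N` acts trivially.  Then `|W| ≤ |A0 ∩ W| * |H⁰(ℚ, A)|`;
* `card_sub_le_of_half` : if moreover `|A0 ∩ W|² ≤ C |W|` and `|H⁰(ℚ, A)| ≤ B` then `|W| ≤ C B²`.
-/
import Fermat.Agent.S15.KN.RChi
import Fermat.Agent.S15.G.Flag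

set_option autoImplicit false
set_option linter.style.haveILetI false

namespace Fermat.Agent.S15.KN.RSub

open Fermat.Agent.S56.Coh Fermat.Agent.CFT.LC Fermat.Agent.CFT.Bridge
  Fermat.Agent.CFT.LocalBridge
open Fermat.Agent.S15.D Fermat.Agent.S15.KN.RChi

variable {k : Type} [CommRing k]

/-- helper2's input of `S15/G/Flag.exists_flag` for `(A, A0)`, in UNIFORM form (so that it passes
to finite powers): `k` acts through integers, a coarse filtration (`P` and `(ρ s - 1)(ρ s - e s)`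
lower the index), and the labels (one integer `n` for the action of `s₀` on `A0`). -/
def HasCoarse (P : ℕ) [Fact P.Prime] (A : Rep.{0} k GQ) (A0 : Submodule k A) : Prop :=
  (∀ c : k, ∃ n : ℤ, ∀ a : A, c • a = n • a) ∧
  (∃ (r : ℕ) (C : ℕ → Submodule k A), C 0 = ⊥ ∧ C r = ⊤ ∧
    (∀ i < r, ∀ u ∈ C (i + 1), P • u ∈ C i) ∧
    (∀ i < r, ∀ s, ∀ u ∈ C (i + 1),
      A.ρ s (A.ρ s u) - (ExtCitation.cycloExp P s + 1) • A.ρ s u +
        ExtCitation.cycloExp P s • u ∈ C i) ∧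
    (∀ i s, ∀ u ∈ C i, A.ρ s u ∈ C i)) ∧
  ((∀ s, ExtCitation.cycloChar P s = 1) ∨
    ∃ s₀ : GQ, ExtCitation.cycloChar P s₀ ≠ 1 ∧ (∀ x, A.ρ s₀ x - x ∈ A0) ∧
      ∃ n : ℤ, ((n : ℤ) : ZMod P) = ((ExtCitation.cycloChar P s₀ : (ZMod P)ˣ) : ZMod P) ∧
        ∀ x ∈ A0, A.ρ s₀ x = n • x)

/-- modules over `ZMod m` satisfy the first clause of `HasCoarse` -/
theorem hk_zmod_uniform (m : ℕ) {B : Type*} [AddCommGroup B] [Module (ZMod m) B] (c : ZMod m) :
    ∃ n : ℤ, ∀ a : B, c • a = n • a :=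
  ⟨(c.cast : ℤ), fun a => by rw [← Int.cast_smul_eq_zsmul (ZMod m), ZMod.intCast_zmod_cast]⟩

variable {P : ℕ} [Fact P.Prime]

/-- coarse data give the flag of the descent -/
theorem HasCoarse.hasFlag {A : Rep.{0} k GQ} [Finite A] {A0 : Submodule k A}
    (h : HasCoarse P A A0) : HasFlag P A A0 := by
  obtain ⟨hk, ⟨r, C, hC0, hCr, hCP, hCrel, hCst⟩, hlab⟩ := h
  refine Fermat.Agent.S15.G.Flag.exists_flag A.ρ (ExtCitation.cycloChar P) (ExtCitation.cycloExp P)
    (fun s => (ExtCitation.coe_cycloChar P s).symm)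
    (fun c a => (hk c).imp fun n hn => hn a) r C hC0 hCr hCP hCrel hCst A0 ?_
  rcases hlab with h1 | ⟨s₀, hs₀, hin, n, hn, hA0⟩
  · exact Or.inl h1
  · exact Or.inr ⟨s₀, hs₀, hin, fun x hx => ⟨n, hn, hA0 x hx⟩⟩

/-- coarse data restrict to Galois-stable submodules -/
theorem HasCoarse.subRep {A : Rep.{0} k GQ} {A0 : Submodule k A} (h : HasCoarse P A A0)
    (W : Submodule k A) (hW : ∀ g, W ≤ W.comap (A.ρ g)) :
    HasCoarse P (Rep.subrepresentation A W hW) (A0.comap W.subtype) := by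
  obtain ⟨hk, ⟨r, C, hC0, hCr, hCP, hCrel, hCst⟩, hlab⟩ := h
  refine ⟨fun c => ?_, ⟨r, fun i => (C i).comap W.subtype, ?_, ?_, ?_, ?_, ?_⟩, ?_⟩
  · obtain ⟨n, hn⟩ := hk c
    refine ⟨n, fun a => Subtype.ext ?_⟩
    change c • (a : A) = ((n • a : ↥W) : A)
    rw [hn]
    exact (Submodule.coe_smul_of_tower n a).symm
  · show (C 0).comap W.subtype = ⊥
    rw [hC0]
    ext x
    simp
  · show (C r).comap W.subtype = ⊤
    rw [hCr]
    rfl
  · intro i hi u hu
    change ((P • u : ↥W) : A) ∈ C i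
    rw [Submodule.coe_smul_of_tower]
    exact hCP i hi _ hu
  · intro i hi s u hu
    exact hCrel i hi s _ hu
  · intro i s u hu
    exact hCst i s _ hu
  · rcases hlab with h1 | ⟨s₀, hs₀, hin, n, hn, hA0⟩
    · exact Or.inl h1
    · refine Or.inr ⟨s₀, hs₀, fun x => hin x, n, hn, fun x hx => Subtype.ext ?_⟩
      change A.ρ s₀ (x : A) = ((n • x : ↥W) : A)
      rw [hA0 (x : A) hx]
      exact (Submodule.coe_smul_of_tower n x).symm

variable {N : ℕ} [Fact N.Prime]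

/-- **The [D]-count for a stable submodule with trivial inertia at `N`.** -/
theorem card_sub_le (hNP : N ≠ P) (A : Rep.{0} k GQ) [Finite A] (A0 : Submodule k A)
    (h : OrdDatum P N A A0) (hc : HasCoarse P A A0) (hsm : ∀ a : A, IsLC₀ levelsAll A a)
    (W : Submodule k A) (hW : ∀ g, W ≤ W.comap (A.ρ g))
    (hN : ∀ s ∈ Iq N, ∀ x ∈ W, A.ρ s x = x) :
    Nat.card W ≤ Nat.card ↥(A0.comap W.subtype) * Nat.card (invG A) := by
  have h1 := card_le_of_inertia_trivial hNP (Rep.subrepresentation A W hW) (A0.comap W.subtype)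
    (h.subRep A W hW) (hc.subRep W hW).hasFlag
    (fun a => by
      obtain ⟨U, hU, ha⟩ := hsm (a : A)
      exact ⟨U, hU, fun s hs => Subtype.ext (ha s hs)⟩)
    (fun s hs x => Subtype.ext (hN s hs x.1 x.2))
  refine h1.trans (Nat.mul_le_mul_left _ ?_)
  refine Nat.card_le_card_of_injective
    (fun x : ↥(invG (Rep.subrepresentation A W hW)) =>
      (⟨(x.1 : A), fun s => congrArg Subtype.val (x.2 s)⟩ : ↥(invG A))) ?_
  intro x y hxy
  exact Subtype.ext (Subtype.ext (congrArg (fun z : ↥(invG A) => (z : A)) hxy))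

/-- If moreover `|A0 ∩ W|² ≤ C |W|` and `|H⁰(ℚ, A)| ≤ B`, then `|W| ≤ C B²`. -/
theorem card_sub_le_of_half (hNP : N ≠ P) (A : Rep.{0} k GQ) [Finite A] (A0 : Submodule k A)
    (h : OrdDatum P N A A0) (hc : HasCoarse P A A0) (hsm : ∀ a : A, IsLC₀ levelsAll A a)
    (W : Submodule k A) (hW : ∀ g, W ≤ W.comap (A.ρ g))
    (hN : ∀ s ∈ Iq N, ∀ x ∈ W, A.ρ s x = x) {C B : ℕ}
    (hhalf : Nat.card ↥(A0.comap W.subtype) ^ 2 ≤ C * Nat.card W)
    (hB : Nat.card (invG A) ≤ B) : Nat.card W ≤ C * B ^ 2 := by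
  have h1 := card_sub_le hNP A A0 h hc hsm W hW hN
  have hpos : 0 < Nat.card W := Nat.card_pos
  have h2 : Nat.card W ^ 2 ≤ (C * B ^ 2) * Nat.card W := by
    calc Nat.card W ^ 2 ≤ (Nat.card ↥(A0.comap W.subtype) * Nat.card (invG A)) ^ 2 :=
          Nat.pow_le_pow_left h1 2
      _ = Nat.card ↥(A0.comap W.subtype) ^ 2 * Nat.card (invG A) ^ 2 := mul_pow _ _ _
      _ ≤ (C * Nat.card W) * B ^ 2 := Nat.mul_le_mul hhalf (Nat.pow_le_pow_left hB 2)
      _ = (C * B ^ 2) * Nat.card W := by ring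
  rw [pow_two] at h2
  exact Nat.le_of_mul_le_mul_right h2 hpos

end Fermat.Agent.S15.KN.RSub
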