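/-
PROJECT M (S15), block [S], leaf (S-f), part 3 (helper13): (S-f') NO NONZERO GALOIS-STABLE SATURATED
SUBLATTICE OF THE TATE MODULE HAS TRIVIAL INERTIA AT `N`.

Abstract frame (= helper7's `Struct/TateEis` literals, as hypotheses): `T` a finite free `ℤ_[P]`-module
with a Galois action `ρT`, finite levels `A k` (representations over `ZMod (P ^ k)`) with equivariant
maps `level k : T →+ A k` whose kernel is `P ^ k T`; `(A k, A0 k)` ordinary data with coarse
filtrations (helper2), smooth, with `|H⁰(ℚ, A k)| ≤ B`.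

* `eq_zero_of_forall_pow_dvd` : `T` is `P`-adically separated;
* `exists_not_mem_smul` : a nonzero saturated submodule contains an element outside `P T`;
* `levelSub` : the image of a submodule at level `k`, as a `ZMod (P ^ k)`-submodule of `A k`;
* `pow_le_card_levelSub` : it has at least `P ^ k` elements if the submodule is nonzero saturated;
* **`eq_bot_of_inertia_trivial`** : a `ρT`-stable saturated submodule `T'` on which `I_N` acts
  trivially and whose images satisfy the half bound `|A0 k ∩ level k (T')|² ≤ C |level k (T')|`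
  is zero.
-/
import Fermat.Agent.S15.KN.RSub

set_option autoImplicit false
set_option linter.style.haveILetI false
set_option linter.unusedSectionVars false

namespace Fermat.Agent.S15.KN.RTate

open Fermat.Agent.S56.Coh Fermat.Agent.CFT.LC Fermat.Agent.CFT.Bridge
  Fermat.Agent.CFT.LocalBridge
open Fermat.Agent.S15.D Fermat.Agent.S15.KN.RChi Fermat.Agent.S15.KN.RSub

variable {P : ℕ} [hP : Fact P.Prime]

/-! ### lattices over `ℤ_[P]` -/

section Lattice

variable {T : Type*} [AddCommGroup T] [Module ℤ_[P] T] [Module.Free ℤ_[P] T]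
  [Module.Finite ℤ_[P] T]

/-- `T` is `P`-adically separated -/
theorem eq_zero_of_forall_pow_dvd (x : T) (h : ∀ n : ℕ, ∃ y : T, x = (P : ℤ_[P]) ^ n • y) :
    x = 0 := by
  have hI : (Ideal.span {(P : ℤ_[P])}) ≠ ⊤ := by
    rw [Ne, Ideal.span_singleton_eq_top]
    exact PadicInt.prime_p.not_isUnit
  have hK := Ideal.iInf_pow_smul_eq_bot_of_isLocalRing (M := T) (Ideal.span {(P : ℤ_[P])}) hI
  have hx : x ∈ (⨅ i : ℕ, (Ideal.span {(P : ℤ_[P])}) ^ i • ⊤ : Submodule ℤ_[P] T) := by
    rw [Submodule.mem_iInf]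
    intro i
    obtain ⟨y, hy⟩ := h i
    rw [hy]
    exact Submodule.smul_mem_smul (Ideal.pow_mem_pow (Ideal.mem_span_singleton_self _) i)
      Submodule.mem_top
  rw [hK] at hx
  exact (Submodule.mem_bot _).mp hx

/-- a nonzero saturated submodule contains an element outside `P T` -/
theorem exists_not_mem_smul (T' : Submodule ℤ_[P] T)
    (hsat : ∀ x : T, (P : ℤ_[P]) • x ∈ T' → x ∈ T') (hne : T' ≠ ⊥) :
    ∃ x ∈ T', ¬ ∃ y : T, x = (P : ℤ_[P]) • y := by
  by_contra hcon
  push Not at hcon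
  apply hne
  rw [eq_bot_iff]
  intro x hx
  rw [Submodule.mem_bot]
  apply eq_zero_of_forall_pow_dvd (P := P) x
  have key : ∀ n : ℕ, ∀ z ∈ T', ∃ y ∈ T', z = (P : ℤ_[P]) ^ n • y := by
    intro n
    induction n with
    | zero =>
      intro z hz
      exact ⟨z, hz, by rw [pow_zero, one_smul]⟩
    | succ n ih =>
      intro z hz
      obtain ⟨y, hy, hzy⟩ := ih z hz
      obtain ⟨w, hw⟩ := hcon y hy
      have hwT : w ∈ T' := hsat w (hw ▸ hy)
      refine ⟨w, hwT, ?_⟩
      rw [hzy, hw, smul_smul, pow_succ]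
  intro n
  obtain ⟨y, -, hy⟩ := key n x hx
  exact ⟨y, hy⟩

/-- for `x ∉ P T`, `P ^ m x ∉ P ^ (m + 1) T` -/
theorem pow_smul_not_mem {x : T} (hx : ¬ ∃ y : T, x = (P : ℤ_[P]) • y) (m : ℕ) :
    ¬ ∃ y : T, (P : ℤ_[P]) ^ m • x = (P : ℤ_[P]) ^ (m + 1) • y := by
  rintro ⟨y, hy⟩
  apply hx
  refine ⟨y, ?_⟩
  have hP0 : ((P : ℤ_[P]) ^ m) ≠ 0 := pow_ne_zero _ (PadicInt.prime_p.ne_zero)
  have h1 : (P : ℤ_[P]) ^ m • (x - (P : ℤ_[P]) • y) = 0 := by
    rw [smul_sub, smul_smul, ← pow_succ, hy, sub_self]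
  rcases smul_eq_zero.mp h1 with h | h
  · exact absurd h hP0
  · exact sub_eq_zero.mp h

end Lattice

/-! ### the image of a submodule at a finite level -/

section Level

variable {T : Type*} [AddCommGroup T] [Module ℤ_[P] T]
  {k : ℕ} {A : Type*} [AddCommGroup A] [Module (ZMod (P ^ k)) A]

/-- the image of `T'` at level `k`, as a `ZMod (P ^ k)`-submodule -/
noncomputable def levelSub (level : T →+ A) (T' : Submodule ℤ_[P] T) : Submodule (ZMod (P ^ k)) A :=
  AddSubgroup.toZModSubmodule (P ^ k) (T'.toAddSubgroup.map level)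

theorem mem_levelSub {level : T →+ A} {T' : Submodule ℤ_[P] T} {a : A} :
    a ∈ levelSub (k := k) level T' ↔ ∃ x ∈ T', level x = a := by
  unfold levelSub
  rw [← SetLike.mem_coe, AddSubgroup.coe_toZModSubmodule, SetLike.mem_coe, AddSubgroup.mem_map]
  rfl

variable [Module.Free ℤ_[P] T] [Module.Finite ℤ_[P] T]

/-- a nonzero saturated submodule has at least `P ^ k` elements at level `k` -/
theorem pow_le_card_levelSub [Finite A] (level : T →+ A)
    (hlev0 : ∀ x : T, level x = 0 ↔ ∃ y : T, x = (P : ℤ_[P]) ^ k • y)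
    (T' : Submodule ℤ_[P] T) (hsat : ∀ x : T, (P : ℤ_[P]) • x ∈ T' → x ∈ T') (hne : T' ≠ ⊥) :
    P ^ k ≤ Nat.card (levelSub (k := k) level T') := by
  obtain ⟨x, hxT, hx⟩ := exists_not_mem_smul T' hsat hne
  have hcast : ∀ n : ℕ, level ((P : ℤ_[P]) ^ n • x) = P ^ n • level x := by
    intro n
    have : ((P : ℤ_[P]) ^ n) • x = (P ^ n : ℕ) • x := by
      rw [← Nat.cast_smul_eq_nsmul ℤ_[P] (P ^ n) x, Nat.cast_pow]
    rw [this, map_nsmul]
  have h2 : P ^ k • level x = 0 := by
    rw [← hcast, hlev0]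
    exact ⟨x, rfl⟩
  have hle : AddSubgroup.zmultiples (level x) ≤
      (levelSub (k := k) level T').toAddSubgroup := by
    rw [AddSubgroup.zmultiples_le]
    exact (mem_levelSub (k := k)).mpr ⟨x, hxT, rfl⟩
  have hcard := AddSubgroup.card_le_of_le hle
  rw [Nat.card_zmultiples] at hcard
  have hord : addOrderOf (level x) = P ^ k := by
    rcases Nat.eq_zero_or_pos k with hk | hk
    · have hP1 : P ^ k = 1 := by rw [hk, pow_zero]
      have hx0 : level x = 0 := by
        have h3 := h2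
        rw [hP1, one_smul] at h3
        exact h3
      rw [hx0, addOrderOf_zero, hP1]
    · have hk' : k - 1 + 1 = k := Nat.sub_add_cancel hk
      have h1 : ¬ P ^ (k - 1) • level x = 0 := by
        rw [← hcast, hlev0]
        rintro ⟨y, hy⟩
        exact pow_smul_not_mem hx (k - 1) ⟨y, by rw [hk']; exact hy⟩
      have h4 : P ^ (k - 1 + 1) • level x = 0 := by rw [hk']; exact h2
      have h5 := addOrderOf_eq_prime_pow h1 h4
      rw [h5, hk']
  rw [hord] at hcard
  exact hcard

end Level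

/-! ### (S-f') -/

section Main

variable {N : ℕ} [Fact N.Prime]

/-- **(S-f')**: a Galois-stable saturated submodule of the Tate module on which the inertia group
at `N` acts trivially, and which satisfies the half bound at every level, is zero. -/
theorem eq_bot_of_inertia_trivial (hNP : N ≠ P)
    {T : Type*} [AddCommGroup T] [Module ℤ_[P] T] [Module.Free ℤ_[P] T] [Module.Finite ℤ_[P] T]
    (ρT : GQ → T → T)
    (A : ∀ k : ℕ, Rep.{0} (ZMod (P ^ k)) GQ) (hfin : ∀ k, Finite (A k))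
    (A0 : ∀ k, Submodule (ZMod (P ^ k)) (A k))
    (level : ∀ k, T →+ A k)
    (hlevρ : ∀ k σ x, level k (ρT σ x) = (A k).ρ σ (level k x))
    (hlev0 : ∀ k x, level k x = 0 ↔ ∃ y : T, x = (P : ℤ_[P]) ^ k • y)
    (hord : ∀ k, 0 < k → OrdDatum P N (A k) (A0 k))
    (hcoarse : ∀ k, 0 < k → HasCoarse P (A k) (A0 k))
    (hsm : ∀ k, ∀ a : A k, IsLC₀ levelsAll (A k) a)
    (B : ℕ) (hB : ∀ k, Nat.card (invG (A k)) ≤ B)
    (T' : Submodule ℤ_[P] T) (hst : ∀ g, ∀ x ∈ T', ρT g x ∈ T')
    (hsat : ∀ x : T, (P : ℤ_[P]) • x ∈ T' → x ∈ T')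
    (hN : ∀ τ ∈ Iq N, ∀ x ∈ T', ρT τ x = x)
    (C : ℕ) (hhalf : ∀ k, 0 < k →
      Nat.card ↥((A0 k).comap (levelSub (k := k) (level k) T').subtype) ^ 2 ≤
        C * Nat.card (levelSub (k := k) (level k) T')) :
    T' = ⊥ := by
  by_contra hne
  set k : ℕ := C * B ^ 2 + 1 with hk
  have hk0 : 0 < k := by omega
  haveI := hfin k
  have hW : ∀ g, levelSub (k := k) (level k) T' ≤
      (levelSub (k := k) (level k) T').comap ((A k).ρ g) := by
    intro g a ha
    obtain ⟨x, hx, rfl⟩ := mem_levelSub.mp ha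
    rw [Submodule.mem_comap, ← hlevρ]
    exact mem_levelSub.mpr ⟨ρT g x, hst g x hx, rfl⟩
  have hNW : ∀ s ∈ Iq N, ∀ a ∈ levelSub (k := k) (level k) T', (A k).ρ s a = a := by
    intro s hs a ha
    obtain ⟨x, hx, rfl⟩ := mem_levelSub.mp ha
    rw [← hlevρ, hN s hs x hx]
  have h1 := card_sub_le_of_half hNP (A k) (A0 k) (hord k hk0) (hcoarse k hk0) (hsm k)
    (levelSub (k := k) (level k) T') hW hNW (hhalf k hk0) (hB k)
  have h2 := pow_le_card_levelSub (k := k) (level k) (hlev0 k) T' hsat hne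
  have h3 : k < P ^ k := Nat.lt_pow_self hP.out.one_lt
  omega

end Main

end Fermat.Agent.S15.KN.RTate
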