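/-
PROJECT M (S15), block [S], leaf (S-f), part 4 (helper13): FINITE POWERS OF ORDINARY DATA, AND (S-f')
FOR A LATTICE `Λ` WHICH IS A FINITE POWER OF THE TATE MODULE (e.g. `Λ = O ⊗ T`, `O` finite free).

* `powRep d A` : the representation on `Fin d → A`, componentwise; `powSub d A0`;
* `ordDatum_pow`, `hasCoarse_pow`, `isLC₀_pow`, `card_invG_pow_le` : the hypotheses of the
  [D]-count pass to finite powers;
* `levelPow` : `Λ →+ powRep d (A k)`, `x ↦ (level k (π i x))_i` for a family `π i : Λ → T`;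
* **`eq_bot_of_inertia_trivial_pow`** : (S-f') for a stable saturated submodule `S` of `Λ`:
  trivial `I_N` + half bound at every level ⇒ `S = ⊥`;
* `eq_bot_of_inertia_trivial_pow'` : the same with the half bound stated for the common kernel
  of `τ - e τ`, `τ ∈ I_P` (which contains `A0`: hypothesis `hQ`).
-/
import Fermat.Agent.S15.KN.RTate

set_option autoImplicit false
set_option linter.style.haveILetI false
set_option linter.unusedSectionVars false

namespace Fermat.Agent.S15.KN.RPow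

open Fermat.Agent.S56.Coh Fermat.Agent.CFT.LC Fermat.Agent.CFT.Bridge
  Fermat.Agent.CFT.LocalBridge
open Fermat.Agent.S15.D Fermat.Agent.S15.KN.RChi Fermat.Agent.S15.KN.RSub
  Fermat.Agent.S15.KN.RTate

/-! ### powers of representations -/

section Pow

variable {k : Type} [CommRing k]

/-- the componentwise action on `Fin d → A` -/
noncomputable def powRho (d : ℕ) (A : Rep.{0} k GQ) : Representation k GQ (Fin d → A) where
  toFun g := LinearMap.pi fun i => (A.ρ g).comp (LinearMap.proj i)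
  map_one' := by
    ext a i
    simp
  map_mul' g h := by
    ext a i
    simp

/-- the `d`-th power of a representation -/
noncomputable abbrev powRep (d : ℕ) (A : Rep.{0} k GQ) : Rep.{0} k GQ := Rep.of (powRho d A)

theorem powRep_ρ_apply (d : ℕ) (A : Rep.{0} k GQ) (g : GQ) (a : powRep d A) (i : Fin d) :
    ((powRep d A).ρ g a : Fin d → A) i = A.ρ g ((a : Fin d → A) i) := rfl

/-- the `d`-th power of a submodule -/
def powSub (d : ℕ) {A : Rep.{0} k GQ} (A0 : Submodule k A) : Submodule k (powRep d A) :=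
  Submodule.pi Set.univ fun _ => A0

theorem mem_powSub {d : ℕ} {A : Rep.{0} k GQ} {A0 : Submodule k A} {a : powRep d A} :
    a ∈ powSub d A0 ↔ ∀ i : Fin d, (a : Fin d → A) i ∈ A0 := by
  unfold powSub
  rw [Submodule.mem_pi]
  exact ⟨fun h i => h i (Set.mem_univ i), fun h i _ => h i⟩

instance (d : ℕ) (A : Rep.{0} k GQ) [Finite A] : Finite (powRep d A) :=
  inferInstanceAs (Finite (Fin d → A))

variable {P N : ℕ} [Fact P.Prime] [Fact N.Prime]

/-- the inclusion of the `i`-th factor -/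
noncomputable def inclPow (d : ℕ) (A : Rep.{0} k GQ) (i : Fin d) : A →+ powRep d A :=
  AddMonoidHom.single (fun _ : Fin d => (A : Type)) i

theorem isUnitCoc_sum {A : Rep.{0} k GQ} {ι : Type*} (t : Finset ι) (b : ι → GQ → A)
    (h : ∀ i ∈ t, IsUnitCoc P A (b i)) : IsUnitCoc P A (∑ i ∈ t, b i) := by
  classical
  induction t using Finset.induction_on with
  | empty =>
    rw [Finset.sum_empty]
    exact isUnitCoc_zero
  | insert a s ha ih =>
    rw [Finset.sum_insert ha]
    exact (h a (Finset.mem_insert_self a s)).add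
      (ih fun i hi => h i (Finset.mem_insert_of_mem hi))

/-- ordinary data pass to finite powers -/
theorem ordDatum_pow {A : Rep.{0} k GQ} {A0 : Submodule k A} (h : OrdDatum P N A A0) (d : ℕ) :
    OrdDatum P N (powRep d A) (powSub d A0) where
  unram q _ hqN hqP s hs x := by
    funext i
    exact h.unram q hqN hqP s hs _
  inertia s hs x := by
    rw [mem_powSub]
    intro i
    exact h.inertia s hs _
  peu g := by
    have hsum : (fun s => (powRep d A).ρ s g - g) =
        ∑ i : Fin d, fun s => inclPow d A i (A.ρ s ((g : Fin d → A) i) - (g : Fin d → A) i) := by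
      funext s
      rw [Finset.sum_apply]
      funext j
      rw [Finset.sum_apply]
      unfold inclPow
      simp only [AddMonoidHom.single_apply]
      rw [Finset.sum_eq_single j]
      · rw [Pi.single_eq_same]
        rfl
      · intro b _ hb
        exact Pi.single_eq_of_ne (Ne.symm hb) _
      · intro hj
        exact absurd (Finset.mem_univ j) hj
    rw [hsum]
    exact isUnitCoc_sum _ _ fun i _ => (h.peu ((g : Fin d → A) i)).comp (inclPow d A i)

/-- coarse data pass to finite powers -/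
theorem hasCoarse_pow {A : Rep.{0} k GQ} {A0 : Submodule k A} (h : HasCoarse P A A0) (d : ℕ) :
    HasCoarse P (powRep d A) (powSub d A0) := by
  obtain ⟨hk, ⟨r, C, hC0, hCr, hCP, hCrel, hCst⟩, hlab⟩ := h
  refine ⟨fun c => ?_, ⟨r, fun i => powSub d (C i), ?_, ?_, ?_, ?_, ?_⟩, ?_⟩
  · obtain ⟨n, hn⟩ := hk c
    refine ⟨n, fun a => ?_⟩
    funext i
    exact hn _
  · show powSub d (C 0) = ⊥
    rw [hC0, eq_bot_iff]
    intro a ha
    rw [Submodule.mem_bot]
    funext i
    exact (Submodule.mem_bot k).mp (mem_powSub.mp ha i)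
  · show powSub d (C r) = ⊤
    rw [hCr, eq_top_iff]
    intro a _
    exact mem_powSub.mpr fun i => Submodule.mem_top
  · intro i hi u hu
    rw [mem_powSub] at hu ⊢
    intro j
    exact hCP i hi _ (hu j)
  · intro i hi s u hu
    rw [mem_powSub] at hu ⊢
    intro j
    exact hCrel i hi s _ (hu j)
  · intro i s u hu
    rw [mem_powSub] at hu ⊢
    intro j
    exact hCst i s _ (hu j)
  · rcases hlab with h1 | ⟨s₀, hs₀, hin, n, hn, hA0⟩
    · exact Or.inl h1
    · refine Or.inr ⟨s₀, hs₀, fun x => mem_powSub.mpr fun j => hin _, n, hn, fun x hx => ?_⟩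
      funext j
      exact hA0 _ (mem_powSub.mp hx j)

/-- smooth vectors pass to finite powers -/
theorem isLC₀_pow {A : Rep.{0} k GQ} (hsm : ∀ a : A, IsLC₀ levelsAll A a) (d : ℕ)
    (a : powRep d A) : IsLC₀ levelsAll (powRep d A) a := by
  classical
  have key : ∀ t : Finset (Fin d), ∃ U ∈ levelsAll.sets, ∀ s ∈ U, ∀ i ∈ t,
      A.ρ s ((a : Fin d → A) i) = (a : Fin d → A) i := by
    intro t
    induction t using Finset.induction_on with
    | empty =>
      obtain ⟨U, hU⟩ := levelsAll.nonempty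
      exact ⟨U, hU, fun s _ i hi => absurd hi (Finset.notMem_empty i)⟩
    | insert j t _ ih =>
      obtain ⟨U, hU, hUa⟩ := ih
      obtain ⟨V, hV, hVa⟩ := hsm ((a : Fin d → A) j)
      obtain ⟨W, hW, hWle⟩ := levelsAll.directed U hU V hV
      refine ⟨W, hW, fun s hs i hi => ?_⟩
      rcases Finset.mem_insert.mp hi with rfl | hi
      · exact hVa s (hWle hs).2
      · exact hUa s (hWle hs).1 i hi
  obtain ⟨U, hU, hUa⟩ := key Finset.univ
  refine ⟨U, hU, fun s hs => ?_⟩
  funext i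
  exact hUa s hs i (Finset.mem_univ i)

/-- the invariants of a power -/
theorem card_invG_pow_le {A : Rep.{0} k GQ} [Finite A] (d : ℕ) {B : ℕ}
    (hB : Nat.card (invG A) ≤ B) : Nat.card (invG (powRep d A)) ≤ B ^ d := by
  have h1 : Nat.card (invG (powRep d A)) ≤ Nat.card (Fin d → ↥(invG A)) := by
    refine Nat.card_le_card_of_injective
      (fun x : ↥(invG (powRep d A)) => fun i : Fin d =>
        (⟨((x : powRep d A) : Fin d → A) i, fun s => congrFun (x.2 s) i⟩ : ↥(invG A))) ?_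
    intro x y hxy
    apply Subtype.ext
    funext i
    exact congrArg (fun z : ↥(invG A) => (z : A)) (congrFun hxy i)
  refine h1.trans ?_
  rw [Nat.card_fun, Nat.card_fin]
  exact Nat.pow_le_pow_left hB d

end Pow

/-! ### (S-f') for a power of the Tate module -/

section Main

variable {P N : ℕ} [hP : Fact P.Prime] [Fact N.Prime]

variable {T : Type*} [AddCommGroup T] [Module ℤ_[P] T]
  {Λ : Type*} [AddCommGroup Λ] [Module ℤ_[P] Λ]

/-- the level map of `Λ`: `x ↦ (level (π i x))_i` -/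
noncomputable def levelPow {k : ℕ} {A : Rep.{0} (ZMod (P ^ k)) GQ} (level : T →+ A) {d : ℕ}
    (π : Fin d → Λ →ₗ[ℤ_[P]] T) : Λ →+ powRep d A :=
  AddMonoidHom.pi fun i => level.comp (π i).toAddMonoidHom

theorem levelPow_apply {k : ℕ} {A : Rep.{0} (ZMod (P ^ k)) GQ} (level : T →+ A) {d : ℕ}
    (π : Fin d → Λ →ₗ[ℤ_[P]] T) (x : Λ) (i : Fin d) :
    (levelPow level π x : Fin d → A) i = level (π i x) := rfl

/-- the level map of `Λ` is equivariant -/
theorem levelPow_rho {k : ℕ} {A : Rep.{0} (ZMod (P ^ k)) GQ} (level : T →+ A) {d : ℕ}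
    (π : Fin d → Λ →ₗ[ℤ_[P]] T) (ρT : GQ → T → T) (ρΛ : GQ → Λ → Λ)
    (hπρ : ∀ i g x, π i (ρΛ g x) = ρT g (π i x))
    (hlevρ : ∀ σ x, level (ρT σ x) = A.ρ σ (level x)) (σ : GQ) (x : Λ) :
    levelPow level π (ρΛ σ x) = (powRep d A).ρ σ (levelPow level π x) := by
  funext i
  rw [levelPow_apply, hπρ, hlevρ]
  rfl

/-- the kernel of the level map of `Λ` is `P ^ k Λ` -/
theorem levelPow_eq_zero_iff {k : ℕ} {A : Rep.{0} (ZMod (P ^ k)) GQ} (level : T →+ A) {d : ℕ}
    (π : Fin d → Λ →ₗ[ℤ_[P]] T)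
    (hπ0 : ∀ x : Λ, (∀ i, ∃ y : T, π i x = (P : ℤ_[P]) ^ k • y) →
      ∃ z : Λ, x = (P : ℤ_[P]) ^ k • z)
    (hlev0 : ∀ x, level x = 0 ↔ ∃ y : T, x = (P : ℤ_[P]) ^ k • y) (x : Λ) :
    levelPow level π x = 0 ↔ ∃ z : Λ, x = (P : ℤ_[P]) ^ k • z := by
  constructor
  · intro h
    apply hπ0 x
    intro i
    rw [← hlev0, ← levelPow_apply level π x i, h]
    rfl
  · rintro ⟨z, rfl⟩
    funext i
    rw [levelPow_apply, map_smul, (hlev0 _).mpr ⟨π i z, rfl⟩]
    rfl

/-- the level map of `Λ` and the scalars -/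
theorem levelPow_smul {k : ℕ} {A : Rep.{0} (ZMod (P ^ k)) GQ} (level : T →+ A) {d : ℕ}
    (π : Fin d → Λ →ₗ[ℤ_[P]] T) (n : ℤ_[P] → ℕ)
    (hlevsm : ∀ (a : ℤ_[P]) (x : T), level (a • x) = n a • level x) (a : ℤ_[P]) (x : Λ) :
    levelPow level π (a • x) = n a • levelPow level π x := by
  funext i
  rw [levelPow_apply, map_smul, hlevsm]
  rfl

variable [Module.Free ℤ_[P] Λ] [Module.Finite ℤ_[P] Λ]

/-- **(S-f') for `Λ`**: `Λ` a finite free `ℤ_[P]`-module with Galois action `ρΛ` and equivariant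
maps `π i : Λ → T` (`i : Fin d`) detecting divisibility by `P ^ k`; `(T, A k, A0 k, level k)` as in
`RTate`.  A `ρΛ`-stable saturated submodule `S` of `Λ` on which `I_N` acts trivially and which
satisfies the half bound at every level is zero. -/
theorem eq_bot_of_inertia_trivial_pow (hNP : N ≠ P) (ρT : GQ → T → T) (ρΛ : GQ → Λ → Λ)
    {d : ℕ} (π : Fin d → Λ →ₗ[ℤ_[P]] T)
    (hπρ : ∀ i g x, π i (ρΛ g x) = ρT g (π i x))
    (hπ0 : ∀ (k : ℕ) (x : Λ), (∀ i, ∃ y : T, π i x = (P : ℤ_[P]) ^ k • y) →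
      ∃ z : Λ, x = (P : ℤ_[P]) ^ k • z)
    (A : ∀ k : ℕ, Rep.{0} (ZMod (P ^ k)) GQ) (hfin : ∀ k, Finite (A k))
    (A0 : ∀ k, Submodule (ZMod (P ^ k)) (A k))
    (level : ∀ k, T →+ A k)
    (hlevρ : ∀ k σ x, level k (ρT σ x) = (A k).ρ σ (level k x))
    (hlev0 : ∀ k x, level k x = 0 ↔ ∃ y : T, x = (P : ℤ_[P]) ^ k • y)
    (hord : ∀ k, 0 < k → OrdDatum P N (A k) (A0 k))
    (hcoarse : ∀ k, 0 < k → HasCoarse P (A k) (A0 k))
    (hsm : ∀ k, ∀ a : A k, IsLC₀ levelsAll (A k) a)
    (B : ℕ) (hB : ∀ k, Nat.card (invG (A k)) ≤ B)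
    (S : Submodule ℤ_[P] Λ) (hst : ∀ g, ∀ x ∈ S, ρΛ g x ∈ S)
    (hsat : ∀ x : Λ, (P : ℤ_[P]) • x ∈ S → x ∈ S)
    (hN : ∀ τ ∈ Iq N, ∀ x ∈ S, ρΛ τ x = x)
    (C : ℕ) (hhalf : ∀ k, 0 < k →
      Nat.card ↥((powSub d (A0 k)).comap
        (levelSub (k := k) (levelPow (level k) π) S).subtype) ^ 2 ≤
        C * Nat.card (levelSub (k := k) (levelPow (level k) π) S)) :
    S = ⊥ := by
  haveI := hfin
  refine eq_bot_of_inertia_trivial hNP ρΛ (fun k => powRep d (A k)) (fun k => inferInstance)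
    (fun k => powSub d (A0 k)) (fun k => levelPow (level k) π) ?_ ?_
    (fun k hk => ordDatum_pow (hord k hk) d) (fun k hk => hasCoarse_pow (hcoarse k hk) d)
    (fun k => isLC₀_pow (hsm k) d) (B ^ d) (fun k => card_invG_pow_le d (hB k))
    S hst hsat hN C hhalf
  · intro k σ x
    exact levelPow_rho (level k) π ρT ρΛ hπρ (hlevρ k) σ x
  · intro k x
    exact levelPow_eq_zero_iff (level k) π (hπ0 k) (hlev0 k) x

end Main


end Fermat.Agent.S15.KN.RPow
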