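/-
PROJECT M (S15), block [S], leaf (S-f), part 5 (helper13): (S-f') FOR `Λ = O ⊗ T`, `O` FINITE FREE.

* `coordProj b i : O ⊗[R] T →ₗ[R] T` : the `i`-th coordinate for a basis `b` of `O` over `R`;
  `coordProj_tmul`, `sum_tmul_coordProj` (`z = ∑ b i ⊗ coordProj b i z`), `coordProj_baseChange`
  (equivariance), `exists_eq_smul_of_coordProj` (divisibility is detected coordinatewise);
* `satSub a S` : the `a`-saturation `{x | ∃ n, a ^ n • x ∈ S}` of a submodule, with
  `le_satSub`, `smul_mem_satSub_iff`, `satSub_stable`, `satSub_fixed`;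
* **`eq_bot_of_inertia_trivial_tensor`** : (S-f') for a stable saturated `ℤ_[P]`-submodule of
  `O ⊗[ℤ_[P]] T` with the action `(ρT g).baseChange O`.
-/
import Fermat.Agent.S15.KN.RPow

set_option autoImplicit false
set_option linter.style.haveILetI false
set_option linter.unusedSectionVars false

namespace Fermat.Agent.S15.KN.RTens

open TensorProduct
open Fermat.Agent.S56.Coh Fermat.Agent.CFT.LC Fermat.Agent.CFT.Bridge
  Fermat.Agent.CFT.LocalBridge
open Fermat.Agent.S15.D Fermat.Agent.S15.KN.RChi Fermat.Agent.S15.KN.RSub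
  Fermat.Agent.S15.KN.RTate Fermat.Agent.S15.KN.RPow

/-! ### coordinates of `O ⊗ T` -/

section Coord

variable {R : Type*} [CommRing R] {O : Type*} [CommRing O] [Algebra R O]
  {T : Type*} [AddCommGroup T] [Module R T] {d : ℕ} (b : Module.Basis (Fin d) R O)

/-- the `i`-th coordinate `O ⊗ T → T` -/
noncomputable def coordProj (i : Fin d) : O ⊗[R] T →ₗ[R] T :=
  (TensorProduct.lid R T).toLinearMap ∘ₗ LinearMap.rTensor T (b.coord i)

theorem coordProj_tmul (i : Fin d) (a : O) (x : T) :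
    coordProj b i (a ⊗ₜ[R] x) = b.repr a i • x := by
  unfold coordProj
  rw [LinearMap.comp_apply, LinearMap.rTensor_tmul, LinearEquiv.coe_coe, TensorProduct.lid_tmul,
    Module.Basis.coord_apply]

theorem sum_tmul_coordProj (z : O ⊗[R] T) : ∑ i, b i ⊗ₜ[R] coordProj b i z = z := by
  induction z using TensorProduct.induction_on with
  | zero => simp
  | tmul a x =>
    simp only [coordProj_tmul]
    have : ∀ i, b i ⊗ₜ[R] (b.repr a i • x) = (b.repr a i • b i) ⊗ₜ[R] x := fun i => by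
      rw [TensorProduct.tmul_smul, TensorProduct.smul_tmul']
    simp only [this]
    rw [← TensorProduct.sum_tmul, b.sum_repr]
  | add z w hz hw =>
    simp only [map_add, TensorProduct.tmul_add, Finset.sum_add_distrib]
    rw [hz, hw]

theorem coordProj_baseChange (f : T →ₗ[R] T) (i : Fin d) (z : O ⊗[R] T) :
    coordProj b i (f.baseChange O z) = f (coordProj b i z) := by
  induction z using TensorProduct.induction_on with
  | zero => simp
  | tmul a x => rw [LinearMap.baseChange_tmul, coordProj_tmul, coordProj_tmul, map_smul]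
  | add z w hz hw => rw [map_add, map_add, hz, hw, map_add, map_add]

theorem exists_eq_smul_of_coordProj (c : R) (z : O ⊗[R] T)
    (h : ∀ i, ∃ y : T, coordProj b i z = c • y) : ∃ w : O ⊗[R] T, z = c • w := by
  choose y hy using h
  refine ⟨∑ i, b i ⊗ₜ[R] y i, ?_⟩
  rw [Finset.smul_sum]
  conv_lhs => rw [← sum_tmul_coordProj b z]
  refine Finset.sum_congr rfl fun i _ => ?_
  rw [hy i, TensorProduct.tmul_smul]

end Coord

/-! ### saturation -/

section Sat

variable {R : Type*} [CommRing R] {M : Type*} [AddCommGroup M] [Module R M]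

/-- the `a`-saturation of a submodule -/
def satSub (a : R) (S : Submodule R M) : Submodule R M where
  carrier := {x | ∃ n : ℕ, a ^ n • x ∈ S}
  add_mem' := by
    rintro x y ⟨n, hn⟩ ⟨m, hm⟩
    refine ⟨n + m, ?_⟩
    rw [smul_add]
    refine S.add_mem ?_ ?_
    · rw [pow_add, mul_comm, mul_smul]
      exact S.smul_mem _ hn
    · rw [pow_add, mul_smul]
      exact S.smul_mem _ hm
  zero_mem' := ⟨0, by rw [smul_zero]; exact S.zero_mem⟩
  smul_mem' := by
    rintro c x ⟨n, hn⟩
    refine ⟨n, ?_⟩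
    rw [smul_comm]
    exact S.smul_mem _ hn

theorem mem_satSub {a : R} {S : Submodule R M} {x : M} :
    x ∈ satSub a S ↔ ∃ n : ℕ, a ^ n • x ∈ S := Iff.rfl

theorem le_satSub (a : R) (S : Submodule R M) : S ≤ satSub a S := fun x hx =>
  ⟨0, by rw [pow_zero, one_smul]; exact hx⟩

theorem smul_mem_satSub {a : R} {S : Submodule R M} {x : M} (h : a • x ∈ satSub a S) :
    x ∈ satSub a S := by
  obtain ⟨n, hn⟩ := h
  exact ⟨n + 1, by rw [pow_succ, mul_smul]; exact hn⟩

/-- the saturation is stable under every additive map commuting with `a` and preserving `S` -/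
theorem satSub_stable {a : R} {S : Submodule R M} (f : M → M)
    (hf : ∀ (n : ℕ) (x : M), f (a ^ n • x) = a ^ n • f x) (hS : ∀ x ∈ S, f x ∈ S) :
    ∀ x ∈ satSub a S, f x ∈ satSub a S := by
  rintro x ⟨n, hn⟩
  exact ⟨n, by rw [← hf]; exact hS _ hn⟩

/-- a map fixing `S` pointwise fixes its saturation pointwise, if `a` is a nonzerodivisor on `M` -/
theorem satSub_fixed {a : R} {S : Submodule R M} (f : M → M)
    (hf : ∀ (n : ℕ) (x : M), f (a ^ n • x) = a ^ n • f x)
    (ha : ∀ (n : ℕ) (x : M), a ^ n • x = 0 → x = 0) (hS : ∀ x ∈ S, f x = x) :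
    ∀ x ∈ satSub a S, f x = x := by
  rintro x ⟨n, hn⟩
  have h1 := hS _ hn
  rw [hf] at h1
  have h2 : a ^ n • (f x - x) = 0 := by rw [smul_sub, h1, sub_self]
  exact sub_eq_zero.mp (ha n _ h2)

theorem satSub_eq_bot {a : R} {S : Submodule R M} (h : satSub a S = ⊥) : S = ⊥ :=
  eq_bot_iff.mpr ((le_satSub a S).trans h.le)

end Sat

/-! ### (S-f') for `O ⊗ T` -/

section Main

variable {P N : ℕ} [hP : Fact P.Prime] [Fact N.Prime]

variable {T : Type*} [AddCommGroup T] [Module ℤ_[P] T] [Module.Free ℤ_[P] T]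
  [Module.Finite ℤ_[P] T]
  {O : Type*} [CommRing O] [Algebra ℤ_[P] O] [Module.Free ℤ_[P] O] [Module.Finite ℤ_[P] O]

/-- **(S-f') for `Λ = O ⊗ T`**: `T` with its levels as in `RTate`, `O` a finite free
`ℤ_[P]`-algebra.  A `ℤ_[P]`-submodule `S` of `O ⊗ T`, stable under the `(ρT g).baseChange O`,
`P`-saturated, on which `I_N` acts trivially and which satisfies the half bound at every level
(levels of `O ⊗ T` : the powers of the levels of `T`, through the coordinates of the basis
`Module.finBasis ℤ_[P] O`) is zero. -/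
theorem eq_bot_of_inertia_trivial_tensor (hNP : N ≠ P) (ρT : GQ → T →ₗ[ℤ_[P]] T)
    (A : ∀ k : ℕ, Rep.{0} (ZMod (P ^ k)) GQ) (hfin : ∀ k, Finite (A k))
    (A0 : ∀ k, Submodule (ZMod (P ^ k)) (A k))
    (level : ∀ k, T →+ A k)
    (hlevρ : ∀ k σ x, level k (ρT σ x) = (A k).ρ σ (level k x))
    (hlev0 : ∀ k x, level k x = 0 ↔ ∃ y : T, x = (P : ℤ_[P]) ^ k • y)
    (hord : ∀ k, 0 < k → OrdDatum P N (A k) (A0 k))
    (hcoarse : ∀ k, 0 < k → HasCoarse P (A k) (A0 k))
    (hsm : ∀ k, ∀ a : A k, IsLC₀ levelsAll (A k) a)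
    (B : ℕ) (hB : ∀ k, Nat.card (invG (A k)) ≤ B)
    (S : Submodule ℤ_[P] (O ⊗[ℤ_[P]] T))
    (hst : ∀ g, ∀ x ∈ S, (ρT g).baseChange O x ∈ S)
    (hsat : ∀ x : O ⊗[ℤ_[P]] T, (P : ℤ_[P]) • x ∈ S → x ∈ S)
    (hN : ∀ τ ∈ Iq N, ∀ x ∈ S, (ρT τ).baseChange O x = x)
    (C : ℕ) (hhalf : ∀ k, 0 < k →
      Nat.card ↥((powSub (Module.finrank ℤ_[P] O) (A0 k)).comap
        (levelSub (k := k) (levelPow (level k)
          (coordProj (T := T) (Module.finBasis ℤ_[P] O))) S).subtype) ^ 2 ≤
        C * Nat.card (levelSub (k := k) (levelPow (level k)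
          (coordProj (T := T) (Module.finBasis ℤ_[P] O))) S)) :
    S = ⊥ :=
  eq_bot_of_inertia_trivial_pow hNP (fun g => ρT g) (fun g => (ρT g).baseChange O)
    (coordProj (T := T) (Module.finBasis ℤ_[P] O))
    (fun i g x => coordProj_baseChange _ (ρT g) i x)
    (fun k x h => exists_eq_smul_of_coordProj _ ((P : ℤ_[P]) ^ k) x h)
    A hfin A0 level hlevρ hlev0 hord hcoarse hsm B hB S hst hsat hN C hhalf

end Main

end Fermat.Agent.S15.KN.RTens
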