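/-
PROJECT M (S15), block [S], leaf (S-f), instantiation, the `Gk`-data half (helper18):
THE HYPOTHESES OF helper13's `KN/RTens.eq_bot_of_inertia_trivial_tensor` FOR THE EISENSTEIN PART.

For `A k := Gk N P k S`, `A0 k := G0red N P k S` (helper24), `T := TeisSub N P S`,
`level := TateEis.level N P S`, `ρT := rhoT N P S` (helper7):

* `hasCoarse_Gk` : helper13's `RSub.HasCoarse` (coarse filtration: helper2's `G/CoarseJ`; the
  label clause in UNIFORM form: one integer for the action of `s₀` on all of `G0red`, from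
  `P/GkFinal.hcyc_Gk` and helper28's `D/Label.exists_int_pow`);
* `hsm_Gk` : smoothness; `hB_Gk` : `|H⁰(ℚ, Gk)| ≤ |J₀(N)(ℚ)_tors|` uniformly in `k` (Mordell-Weil);
* **`eq_bot_of_inertia_trivial_Gk`** : (S-f') for `O ⊗ TeisSub` with ONLY the half bound left as a
  hypothesis.
-/
import Fermat.Agent.S15.KN.RTens
import Fermat.Agent.S15.Struct.TateEis
import Fermat.Agent.S15.P.GkFinal
import Fermat.Agent.S15.D.ToStar

set_option autoImplicit false
set_option synthInstance.maxHeartbeats 400000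
set_option linter.unusedSectionVars false

namespace Fermat.Agent.S15.KN.GkData

open TensorProduct ModularCurve
open Fermat.Agent.S56.Coh Fermat.Agent.CFT.LC Fermat.Agent.CFT.Bridge
  Fermat.Agent.CFT.LocalBridge
open Fermat.Agent.S15.D Fermat.Agent.S15.D.Greenberg Fermat.Agent.S15.K.Star
  Fermat.Agent.S15.K.Ord Fermat.Agent.S15.K.Kummer
open Fermat.Agent.S15.KN.RChi Fermat.Agent.S15.KN.RSub Fermat.Agent.S15.KN.RTate
  Fermat.Agent.S15.KN.RPow Fermat.Agent.S15.KN.RTens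
open Fermat.Agent.S15.Struct.TateEis

variable {N : ℕ} [NeZero N] {P : ℕ} [hP : Fact P.Prime] {S : Set ℕ}

/-- `Gk` is killed by `P ^ k`. -/
theorem pow_smul_Gk' {k : ℕ} (a : Gk N P k S) : (P ^ k) • a = 0 :=
  Subtype.ext (Subtype.ext (mem_Tm_iff.1 (a.1 : ↥(Tm N (P ^ k))).2))

/-- **The label clause in uniform form**: for `P` odd, ONE integer `n` lifting the mod `P`
cyclotomic character of `s₀` with `ρ s₀ x = n • x` for all `x ∈ G0red`. -/
theorem exists_uniform_label [Fact N.Prime] (hPN : ¬ P ∣ N) (hSfin : S.Finite)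
    (hS : ∀ r : Nat.Primes, (r : ℕ) ∉ S → ¬ (r : ℕ) ∣ N ∧ (r : ℕ) ≠ P) (k : ℕ) :
    (∀ s, ExtCitation.cycloChar P s = 1) ∨
      ∃ s₀ : GQ, ExtCitation.cycloChar P s₀ ≠ 1 ∧
        (∀ x, (Gk N P k S).ρ s₀ x - x ∈ G0red N P k S) ∧
        ∃ n : ℤ, ((n : ℤ) : ZMod P) = ((ExtCitation.cycloChar P s₀ : (ZMod P)ˣ) : ZMod P) ∧
          ∀ x ∈ G0red N P k S, (Gk N P k S).ρ s₀ x = n • x := by
  have hPp : P.Prime := hP.out
  have : NeZero P := ⟨hPp.ne_zero⟩
  have hPk : NeZero (P ^ k) := ⟨pow_ne_zero _ hPp.ne_zero⟩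
  have hfin : Finite (Gk N P k S) := Fermat.Agent.S15.K.Count.finite_Gk
  by_cases hP2 : P = 2
  · left
    intro s
    subst hP2
    exact Subsingleton.elim _ _
  · right
    obtain ⟨s₀, hs₀, hχ⟩ := Fermat.Agent.S15.D.Label.exists_mem_Iq_cycloChar_ne_one hP2
    refine ⟨s₀, hχ, fun x => inertia_Gk hPN s₀ hs₀ x, ?_⟩
    rcases Nat.eq_zero_or_pos k with hk | hk
    · subst hk
      have hx0 : ∀ a : Gk N P 0 S, a = 0 := fun a => by
        have h : (1 : ℕ) • a = 0 := pow_smul_Gk' a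
        rwa [one_smul] at h
      refine ⟨((((ExtCitation.cycloChar P s₀ : (ZMod P)ˣ) : ZMod P).val : ℕ) : ℤ), ?_, ?_⟩
      · rw [Int.cast_natCast, ZMod.natCast_zmod_val]
      · intro x _
        rw [hx0 ((Gk N P 0 S).ρ s₀ x), hx0 x, smul_zero]
    · obtain ⟨m, hm1, hm2⟩ := Fermat.Agent.S15.D.Label.exists_int_pow (P := P) s₀ k hk
      refine ⟨m, hm1, fun x hx => ?_⟩
      apply Fermat.Agent.S15.D.DualCount.eq_of_forall_addHom Qbar
      intro d
      have h1 := Fermat.Agent.S15.P.GkFinal.hcyc_Gk hPN hSfin hS s₀ hs₀ x hx d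
      have h2 : ev d x ^ (P ^ k) = 1 := by
        rw [← Fermat.Agent.S15.D.Label.ev_nsmul, pow_smul_Gk' x, ev_zero]
      rw [hm2 _ h2, ← Fermat.Agent.S15.D.Label.ev_zsmul] at h1
      apply Additive.toMul.injective
      apply Units.ext
      exact h1

/-- **helper13's `HasCoarse` for the Eisenstein part.** -/
theorem hasCoarse_Gk [Fact N.Prime] (hPN : ¬ P ∣ N) (hSfin : S.Finite)
    (hS : ∀ r : Nat.Primes, (r : ℕ) ∉ S → ¬ (r : ℕ) ∣ N ∧ (r : ℕ) ≠ P) (k : ℕ) :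
    HasCoarse P (Gk N P k S) (G0red N P k S) := by
  have hPk : NeZero (P ^ k) := ⟨pow_ne_zero _ hP.out.ne_zero⟩
  exact ⟨fun c => hk_zmod_uniform (P ^ k) c,
    Fermat.Agent.S15.G.CoarseJ.exists_coarse_Gk N P k S hSfin hS,
    exists_uniform_label hPN hSfin hS k⟩

/-- **Smoothness of the Eisenstein part.** -/
theorem hsm_Gk (k : ℕ) (a : Gk N P k S) : IsLC₀ levelsAll (Gk N P k S) a := by
  have hPk : NeZero (P ^ k) := ⟨pow_ne_zero _ hP.out.ne_zero⟩
  obtain ⟨U, hU, h⟩ := Fermat.Agent.S15.D.ToStar.level_Gk (N := N) (P := P) (k := k) (S := S)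
  exact ⟨U, hU, fun s hs => h s hs a⟩

/-- **`|H⁰(ℚ, Gk)|` is bounded uniformly in `k`** (Mordell-Weil). -/
theorem hB_Gk [hN : Fact N.Prime] (hN5 : 5 ≤ N) (k : ℕ) :
    Nat.card (invG (Gk N P k S)) ≤
      Nat.card ↥(AddCommGroup.torsion ↥(FixedPoints.addSubgroup GQ (JZero N))) := by
  have hfg := Fermat.Agent.S17.result N hN.out hN5
  exact Fermat.Agent.S15.D.ToStar.card_FixG_le (N := N) (P := P) (k := k) (S := S) hfg

/-- **(S-f') for `O ⊗ TeisSub`, the `Gk`-data discharged**: a `ℤ_[P]`-submodule of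
`O ⊗ TeisSub`, stable under the Galois action, `P`-saturated, on which `I_N` acts trivially and
which satisfies the half bound at every level, is zero. -/
theorem eq_bot_of_inertia_trivial_Gk [hN : Fact N.Prime] (hN5 : 5 ≤ N) (hNP : N ≠ P)
    (hSfin : S.Finite)
    (hS : ∀ r : Nat.Primes, (r : ℕ) ∉ S → ¬ (r : ℕ) ∣ N ∧ (r : ℕ) ≠ P)
    {O : Type*} [CommRing O] [Algebra ℤ_[P] O] [Module.Free ℤ_[P] O] [Module.Finite ℤ_[P] O]
    (W : Submodule ℤ_[P] (O ⊗[ℤ_[P]] ↥(TeisSub N P S)))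
    (hst : ∀ g, ∀ x ∈ W, (rhoT N P S g).baseChange O x ∈ W)
    (hsat : ∀ x : O ⊗[ℤ_[P]] ↥(TeisSub N P S), (P : ℤ_[P]) • x ∈ W → x ∈ W)
    (hI : ∀ τ ∈ Iq N, ∀ x ∈ W, (rhoT N P S τ).baseChange O x = x)
    (C : ℕ) (hhalf : ∀ k, 0 < k →
      Nat.card ↥((powSub (Module.finrank ℤ_[P] O) (G0red N P k S)).comap
        (levelSub (k := k) (levelPow (level N P S k)
          (coordProj (T := ↥(TeisSub N P S)) (Module.finBasis ℤ_[P] O))) W).subtype) ^ 2 ≤
        C * Nat.card (levelSub (k := k) (levelPow (level N P S k)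
          (coordProj (T := ↥(TeisSub N P S)) (Module.finBasis ℤ_[P] O))) W)) :
    W = ⊥ := by
  have := finite_Teis N P S
  have := free_Teis N P S
  have hPN : ¬ P ∣ N := fun hd =>
    hNP ((Nat.prime_dvd_prime_iff_eq hP.out hN.out).1 hd).symm
  exact eq_bot_of_inertia_trivial_tensor hNP (fun g => rhoT N P S g)
    (fun k => Gk N P k S)
    (fun k => by
      have : NeZero (P ^ k) := ⟨pow_ne_zero _ hP.out.ne_zero⟩
      exact Fermat.Agent.S15.K.Count.finite_Gk)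
    (fun k => G0red N P k S) (fun k => level N P S k)
    (fun k σ x => level_rhoT N P S k σ x)
    (fun k x => level_eq_zero_iff N P S k x)
    (fun k _ => Fermat.Agent.S15.P.GkFinal.ordDatum_Gk hPN hSfin hS)
    (fun k _ => hasCoarse_Gk hPN hSfin hS k)
    (fun k a => hsm_Gk k a)
    (Nat.card ↥(AddCommGroup.torsion ↥(FixedPoints.addSubgroup GQ (JZero N))))
    (fun k => hB_Gk hN5 k) W hst hsat hI C hhalf

end Fermat.Agent.S15.KN.GkData
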