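/-
PROJECT M (S15), block [S], leaf (S-f), part 6 (helper13): (S-f) IN THE CHIEF'S ELEMENTARY FRAME
(`Struct/Rep.halfBound_rep`).

* `eq_bot_of_inertia_trivial_rep` : `S` an `O`-submodule of `Λ`, stable, `P`-saturated,
  with trivial `I_N`; if the CONCLUSION of `halfBound_rep` holds for `↥S` with `ϖ = P` and a set `W`
  of pairs `(τ, cyc τ)`, `τ ∈ I_P`, then `S = ⊥`.  (`(Q5a)`: `τ = cyc τ` on `A0 k`, hypothesis `hQ`.)
* `exists_ne_of_inertiaN_self` : the second clause of `hpiece` of `halfBound_rep_self` for `W_N` from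
  the same clause for `W_P` (eigenlattices of `Λ` itself);
* `exists_ne_of_inertiaN` : the `W_N`-hypothesis `hu` of `halfBound_rep` for a stable saturated
  submodule `E` of `O ⊗ T` (an eigenlattice) which embeds equivariantly in a power of a free module
  `Rc` of rank `≤ 2` satisfying the `W_P`-hypothesis `hu`.
-/
import Fermat.Agent.S15.KN.RTens
import Fermat.Agent.S15.Struct.Rep

set_option autoImplicit false
set_option linter.style.haveILetI false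
set_option linter.unusedSectionVars false

namespace Fermat.Agent.S15.KN.RFinal

open TensorProduct Function
open Fermat.Agent.S56.Coh Fermat.Agent.CFT.LC Fermat.Agent.CFT.Bridge
  Fermat.Agent.CFT.LocalBridge
open Fermat.Agent.S15.D Fermat.Agent.S15.KN.RChi Fermat.Agent.S15.KN.RSub
  Fermat.Agent.S15.KN.RTate Fermat.Agent.S15.KN.RPow Fermat.Agent.S15.KN.RTens
open Fermat.Agent.S15.Struct.Count

section A

variable {P N : ℕ} [hP : Fact P.Prime] [Fact N.Prime]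

variable {T : Type*} [AddCommGroup T] [Module ℤ_[P] T]
  {O : Type*} [CommRing O] [Algebra ℤ_[P] O]
  {Λ : Type*} [AddCommGroup Λ] [Module ℤ_[P] Λ] [Module O Λ] [IsScalarTower ℤ_[P] O Λ]

variable (O) in
/-- scalars of `ℤ_[P]` and of `O` on `Λ` -/
theorem natCast_pow_smul (n : ℕ) (x : Λ) :
    ((P : ℤ_[P]) ^ n) • x = ((P : O) ^ n) • x := by
  rw [← algebraMap_smul O ((P : ℤ_[P]) ^ n) x, map_pow, map_natCast]

variable [Module.Free ℤ_[P] Λ] [Module.Finite ℤ_[P] Λ]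

/-- **(S-f) against the conclusion of `halfBound_rep`.** -/
theorem eq_bot_of_inertia_trivial_rep (hNP : N ≠ P) (ρT : GQ → T → T) (ρΛ : GQ → Λ → Λ)
    {d : ℕ} (π : Fin d → Λ →ₗ[ℤ_[P]] T)
    (hπρ : ∀ i g x, π i (ρΛ g x) = ρT g (π i x))
    (hπ0 : ∀ (k : ℕ) (x : Λ), (∀ i, ∃ y : T, π i x = (P : ℤ_[P]) ^ k • y) →
      ∃ z : Λ, x = (P : ℤ_[P]) ^ k • z)
    (A : ∀ k : ℕ, Rep.{0} (ZMod (P ^ k)) GQ) (hfin : ∀ k, Finite (A k))
    (A0 : ∀ k, Submodule (ZMod (P ^ k)) (A k))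
    (level : ∀ k, T →+ A k)
    (hlevρ : ∀ k σ x, level k (ρT σ x) = (A k).ρ σ (level k x))
    (hlev0 : ∀ k x, level k x = 0 ↔ ∃ y : T, x = (P : ℤ_[P]) ^ k • y)
    (hord : ∀ k, 0 < k → OrdDatum P N (A k) (A0 k))
    (hcoarse : ∀ k, 0 < k → HasCoarse P (A k) (A0 k))
    (hsm : ∀ k, ∀ a : A k, IsLC₀ levelsAll (A k) a)
    (B : ℕ) (hB : ∀ k, Nat.card (invG (A k)) ≤ B)
    (hlevsm : ∀ k (a : ℤ_[P]) (x : T), level k (a • x) = a.appr k • level k x)
    (e : GQ → ℤ_[P])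
    (hQ : ∀ k, 0 < k → ∀ τ ∈ Iq P, ∀ a ∈ A0 k, (A k).ρ τ a = (e τ).appr k • a)
    (S : Submodule O Λ) (ρS : GQ → ↥S → ↥S)
    (hρS : ∀ g (x : ↥S), ((ρS g x : ↥S) : Λ) = ρΛ g (x : Λ))
    (hsat : ∀ x : Λ, (P : O) • x ∈ S → x ∈ S)
    (hN : ∀ τ ∈ Iq N, ∀ x : ↥S, ρS τ x = x)
    (W : Set (GQ × O)) (hW : ∀ w ∈ W, w.1 ∈ Iq P ∧ w.2 = algebraMap ℤ_[P] O (e w.1))
    (C : ℕ) (hhalf : ∀ k : ℕ,
      Nat.card {x : ↥S ⧸ piSub O ↥S ((P : O) ^ k) // ∀ w ∈ W, ∃ y : ↥S,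
        Submodule.Quotient.mk y = x ∧
        (Submodule.Quotient.mk (ρS w.1 y) : ↥S ⧸ piSub O ↥S ((P : O) ^ k)) = w.2 • x} ^ 2 ≤
      C * Nat.card (↥S ⧸ piSub O ↥S ((P : O) ^ k))) :
    S = ⊥ := by
  classical
  haveI := hfin
  have hsatn : ∀ (n : ℕ) (x : Λ), ((P : O) ^ n) • x ∈ S → x ∈ S := by
    intro n
    induction n with
    | zero =>
      intro x hx
      rwa [pow_zero, one_smul] at hx
    | succ n ih =>
      intro x hx
      rw [pow_succ, mul_smul] at hx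
      exact hsat x (ih _ hx)
  have hbot : S.restrictScalars ℤ_[P] = ⊥ := by
    refine eq_bot_of_inertia_trivial_pow hNP ρT ρΛ π hπρ hπ0 A hfin A0 level hlevρ hlev0 hord
      hcoarse hsm B hB (S.restrictScalars ℤ_[P]) ?_ ?_ ?_ C ?_
    · intro g x hx
      have h1 := hρS g ⟨x, hx⟩
      change ρΛ g x ∈ S
      rw [← h1]
      exact (ρS g ⟨x, hx⟩).2
    · intro x hx
      change x ∈ S
      apply hsat
      have h1 := natCast_pow_smul (P := P) O 1 x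
      rw [pow_one, pow_one] at h1
      rw [← h1]
      exact hx
    · intro τ hτ x hx
      have h1 := hρS τ ⟨x, hx⟩
      rw [hN τ hτ] at h1
      exact h1.symm
    · intro k hk
      -- the level map of `Λ = O ⊗ T`
      set lp : Λ →+ powRep d (A k) := levelPow (level k) π with hlp
      have lp_zero : ∀ x : Λ, lp x = 0 ↔ ∃ z, x = (P : ℤ_[P]) ^ k • z :=
        levelPow_eq_zero_iff (level k) π (hπ0 k) (hlev0 k)
      have lp_rho : ∀ (g : GQ) (x : Λ),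
          lp (ρΛ g x) = (powRep d (A k)).ρ g (lp x) :=
        fun g x => levelPow_rho (level k) π ρT ρΛ hπρ (hlevρ k) g x
      have lp_smul : ∀ (a : ℤ_[P]) (x : Λ), lp (a • x) = a.appr k • lp x :=
        levelPow_smul (level k) π (fun a => a.appr k) (hlevsm k)
      set Wk := levelSub (k := k) lp (S.restrictScalars ℤ_[P]) with hWk
      -- elements of `S` killed by the level map are in `P ^ k S`
      have hker : ∀ u : ↥S, lp (u : Λ) = 0 → u ∈ piSub O ↥S ((P : O) ^ k) := by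
        intro u hu
        obtain ⟨z, hz⟩ := (lp_zero _).mp hu
        rw [natCast_pow_smul O] at hz
        have hzS : z ∈ S := hsatn k z (by rw [← hz]; exact u.2)
        exact mem_piSub.mpr ⟨⟨z, hzS⟩, Subtype.ext hz.symm⟩
      have hker' : ∀ u : ↥S, u ∈ piSub O ↥S ((P : O) ^ k) → lp (u : Λ) = 0 := by
        intro u hu
        obtain ⟨z, rfl⟩ := mem_piSub.mp hu
        apply (lp_zero _).mpr
        refine ⟨(z : Λ), ?_⟩
        rw [natCast_pow_smul O]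
        rfl
      let f : ↥S → ↥Wk := fun y =>
        ⟨lp (y : Λ), mem_levelSub.mpr ⟨(y : Λ), y.2, rfl⟩⟩
      have hf : ∀ y : ↥S, ((f y : ↥Wk) : powRep d (A k)) = lp (y : Λ) := fun _ => rfl
      have hfeq : ∀ y₁ y₂ : ↥S, f y₁ = f y₂ ↔
          (Submodule.Quotient.mk y₁ : ↥S ⧸ piSub O ↥S ((P : O) ^ k)) =
            Submodule.Quotient.mk y₂ := by
        intro y₁ y₂
        rw [Submodule.Quotient.eq]
        constructor
        · intro h
          apply hker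
          have h1 := congrArg (fun a : ↥Wk => (a : powRep d (A k))) h
          simp only [hf] at h1
          rw [Submodule.coe_sub, map_sub, h1, sub_self]
        · intro h
          have h1 := hker' _ h
          rw [Submodule.coe_sub, map_sub, sub_eq_zero] at h1
          exact Subtype.ext h1
      have hfsurj : ∀ a : ↥Wk, ∃ y : ↥S, f y = a := by
        intro a
        obtain ⟨x, hx, hxa⟩ := mem_levelSub.mp a.2
        exact ⟨⟨x, hx⟩, Subtype.ext hxa⟩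
      choose g hg using hfsurj
      let G : ↥Wk → ↥S ⧸ piSub O ↥S ((P : O) ^ k) := fun a => Submodule.Quotient.mk (g a)
      have hGsurj : Surjective G := by
        intro x
        obtain ⟨y, rfl⟩ := Submodule.Quotient.mk_surjective _ x
        exact ⟨f y, (hfeq _ _).mp (hg (f y))⟩
      have hGinj : Injective G := by
        intro a a' h
        have h1 := (hfeq _ _).mpr h
        rw [hg, hg] at h1
        exact h1
      haveI : Finite (↥S ⧸ piSub O ↥S ((P : O) ^ k)) := Finite.of_surjective G hGsurj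
      have hcard1 : Nat.card (↥S ⧸ piSub O ↥S ((P : O) ^ k)) ≤ Nat.card ↥Wk :=
        Nat.card_le_card_of_surjective G hGsurj
      -- the connected part lands in the kernel set
      have hmem : ∀ a : ↥((powSub d (A0 k)).comap Wk.subtype), ∀ w ∈ W, ∃ y : ↥S,
          Submodule.Quotient.mk y = G a.1 ∧
          (Submodule.Quotient.mk (ρS w.1 y) : ↥S ⧸ piSub O ↥S ((P : O) ^ k)) = w.2 • G a.1 := by
        intro a w hw
        obtain ⟨hτ, hw2⟩ := hW w hw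
        refine ⟨g a.1, rfl, ?_⟩
        change _ = w.2 • (Submodule.Quotient.mk (g a.1) : ↥S ⧸ piSub O ↥S ((P : O) ^ k))
        rw [← Submodule.Quotient.mk_smul, Submodule.Quotient.eq]
        apply hker
        have ha0 : ((a.1 : ↥Wk) : powRep d (A k)) ∈ powSub d (A0 k) := a.2
        have hga : lp ((g a.1 : ↥S) : Λ) = ((a.1 : ↥Wk) : powRep d (A k)) := by
          rw [← hf, hg]
        rw [Submodule.coe_sub, map_sub, hρS, lp_rho, Submodule.coe_smul, hw2, algebraMap_smul,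
          lp_smul, hga, sub_eq_zero]
        funext i
        rw [powRep_ρ_apply]
        exact hQ k hk w.1 hτ _ (mem_powSub.mp ha0 i)
      let H : ↥((powSub d (A0 k)).comap Wk.subtype) →
          {x : ↥S ⧸ piSub O ↥S ((P : O) ^ k) // ∀ w ∈ W, ∃ y : ↥S,
            Submodule.Quotient.mk y = x ∧
            (Submodule.Quotient.mk (ρS w.1 y) : ↥S ⧸ piSub O ↥S ((P : O) ^ k)) = w.2 • x} :=
        fun a => ⟨G a.1, hmem a⟩
      have hHinj : Injective H := by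
        intro a a' h
        have h1 : G a.1 = G a'.1 := congrArg Subtype.val h
        exact Subtype.ext (hGinj h1)
      have hcard2 := Nat.card_le_card_of_injective H hHinj
      calc Nat.card ↥((powSub d (A0 k)).comap Wk.subtype) ^ 2
          ≤ _ := Nat.pow_le_pow_left hcard2 2
        _ ≤ C * Nat.card (↥S ⧸ piSub O ↥S ((P : O) ^ k)) := hhalf k
        _ ≤ C * Nat.card ↥Wk := Nat.mul_le_mul_left _ hcard1
  rw [eq_bot_iff]
  intro x hx
  have h1 : x ∈ S.restrictScalars ℤ_[P] := hx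
  rw [hbot] at h1
  exact h1

end A

section B

universe uκ w

variable {P N : ℕ} [hP : Fact P.Prime] [Fact N.Prime]

variable {T : Type*} [AddCommGroup T] [Module ℤ_[P] T]
  {O : Type*} [CommRing O] [Algebra ℤ_[P] O] [IsDomain O] [IsPrincipalIdealRing O]
  {Λ : Type*} [AddCommGroup Λ] [Module ℤ_[P] Λ] [Module O Λ] [IsScalarTower ℤ_[P] O Λ]
  [Module.Free ℤ_[P] Λ] [Module.Finite ℤ_[P] Λ] [Module.Finite O Λ] [Module.IsTorsionFree O Λ]

open Fermat.Agent.S15.Struct.Eigen Fermat.Agent.S15.Struct.Rep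

/-- **(S-f) as the `W_N`-hypothesis `hu` of `halfBound_rep`**: `E` a stable `P`-saturated
`O`-submodule of `Λ` (an eigenlattice of `Λ = O ⊗ T`) which embeds equivariantly in a power of a
free module `Rc` of rank `≤ 2` satisfying the `W_P`-hypothesis (`W_P` a set of pairs
`(τ, cyc τ)`, `τ ∈ I_P`).  Then no nonzero stable submodule of `E` is fixed pointwise by `I_N`. -/
theorem exists_ne_of_inertiaN (hPO : (P : O) ≠ 0)
    (hO : ∀ a : O, a ≠ 0 → Finite (O ⧸ Ideal.span {a}))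
    (hNP : N ≠ P) (ρT : GQ → T → T) (ρΛ : GQ →* Module.End O Λ)
    {d : ℕ} (π : Fin d → Λ →ₗ[ℤ_[P]] T)
    (hπρ : ∀ i g x, π i (ρΛ g x) = ρT g (π i x))
    (hπ0 : ∀ (k : ℕ) (x : Λ), (∀ i, ∃ y : T, π i x = (P : ℤ_[P]) ^ k • y) →
      ∃ z : Λ, x = (P : ℤ_[P]) ^ k • z)
    (A : ∀ k : ℕ, Rep.{0} (ZMod (P ^ k)) GQ) (hfin : ∀ k, Finite (A k))
    (A0 : ∀ k, Submodule (ZMod (P ^ k)) (A k))
    (level : ∀ k, T →+ A k)
    (hlevρ : ∀ k σ x, level k (ρT σ x) = (A k).ρ σ (level k x))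
    (hlev0 : ∀ k x, level k x = 0 ↔ ∃ y : T, x = (P : ℤ_[P]) ^ k • y)
    (hord : ∀ k, 0 < k → OrdDatum P N (A k) (A0 k))
    (hcoarse : ∀ k, 0 < k → HasCoarse P (A k) (A0 k))
    (hsm : ∀ k, ∀ a : A k, IsLC₀ levelsAll (A k) a)
    (B : ℕ) (hB : ∀ k, Nat.card (invG (A k)) ≤ B)
    (hlevsm : ∀ k (a : ℤ_[P]) (x : T), level k (a • x) = a.appr k • level k x)
    (e : GQ → ℤ_[P])
    (hQ : ∀ k, 0 < k → ∀ τ ∈ Iq P, ∀ a ∈ A0 k, (A k).ρ τ a = (e τ).appr k • a)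
    (E : Submodule O Λ) (hEsat : ∀ x : Λ, (P : O) • x ∈ E → x ∈ E)
    (ρE : GQ →* Module.End O ↥E)
    (hρE : ∀ g (x : ↥E), ((ρE g x : ↥E) : Λ) = ρΛ g (x : Λ))
    {Rc : Type w} [AddCommGroup Rc] [Module O Rc] [Module.Free O Rc] [Module.Finite O Rc]
    (ρc : GQ →* Module.End O Rc) (hR : Module.finrank O Rc ≤ 2)
    (WP : Set (GQ × O)) (hWP : ∀ w ∈ WP, w.1 ∈ Iq P ∧ w.2 = algebraMap ℤ_[P] O (e w.1))
    (huP : ∀ S' : Submodule O Rc, (∀ g, ∀ x ∈ S', ρc g x ∈ S') → S' ≠ ⊥ →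
      ∃ w ∈ WP, ∃ x ∈ S', ρc w.1 x ≠ w.2 • x)
    {κ : Type uκ} (j : ↥E →ₗ[O] (κ → Rc)) (hj : Injective j)
    (hjeq : ∀ g (x : ↥E) i, j (ρE g x) i = ρc g (j x i))
    (WN : Set (GQ × O)) (hWN : ∀ τ ∈ Iq N, ((τ, 1) : GQ × O) ∈ WN)
    (S : Submodule O ↥E) (hSst : ∀ g, ∀ x ∈ S, ρE g x ∈ S) (hS : S ≠ ⊥) :
    ∃ w ∈ WN, ∃ x ∈ S, ρE w.1 x ≠ w.2 • x := by
  by_contra hcon
  have hfix : ∀ τ ∈ Iq N, ∀ x ∈ S, ρE τ x = x := by
    intro τ hτ x hx
    by_contra hne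
    exact hcon ⟨(τ, 1), hWN τ hτ, x, hx, by rw [one_smul]; exact hne⟩
  -- the saturation of `S` inside `Λ`
  set S₀ : Submodule O Λ := S.map E.subtype with hS₀
  set S₂ : Submodule O Λ := satSub (P : O) S₀ with hS₂
  have hEsatn : ∀ (n : ℕ) (x : Λ), ((P : O) ^ n) • x ∈ E → x ∈ E := by
    intro n
    induction n with
    | zero =>
      intro x hx
      rwa [pow_zero, one_smul] at hx
    | succ n ih =>
      intro x hx
      rw [pow_succ, mul_smul] at hx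
      exact hEsat x (ih _ hx)
  have hS₀E : S₀ ≤ E := by
    rintro x ⟨y, -, rfl⟩
    exact y.2
  have hS₂E : S₂ ≤ E := by
    rintro x ⟨n, hn⟩
    exact hEsatn n x (hS₀E hn)
  have hS₀st : ∀ g, ∀ x ∈ S₀, ρΛ g x ∈ S₀ := by
    rintro g x ⟨y, hy, rfl⟩
    exact ⟨ρE g y, hSst g y hy, hρE g y⟩
  have hS₀fix : ∀ τ ∈ Iq N, ∀ x ∈ S₀, ρΛ τ x = x := by
    rintro τ hτ x ⟨y, hy, rfl⟩
    have h1 := hρE τ y
    rw [hfix τ hτ y hy] at h1
    exact h1.symm
  have hS₂st : ∀ g, ∀ x ∈ S₂, ρΛ g x ∈ S₂ := fun g =>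
    satSub_stable (fun x => ρΛ g x) (fun n x => map_smul (ρΛ g) _ x) (hS₀st g)
  have hPn : ∀ (n : ℕ) (x : Λ), ((P : O) ^ n) • x = 0 → x = 0 := fun n x h =>
    (smul_eq_zero_iff_right (pow_ne_zero n hPO)).mp h
  have hS₂fix : ∀ τ ∈ Iq N, ∀ x ∈ S₂, ρΛ τ x = x := fun τ hτ =>
    satSub_fixed (fun x => ρΛ τ x) (fun n x => map_smul (ρΛ τ) _ x) hPn (hS₀fix τ hτ)
  have hS₂ne : S₂ ≠ ⊥ := by
    intro h
    apply hS
    have h0 : S₀ = ⊥ := satSub_eq_bot h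
    rw [eq_bot_iff]
    intro x hx
    have h1 : (x : Λ) ∈ S₀ := ⟨x, hx, rfl⟩
    rw [h0, Submodule.mem_bot] at h1
    rw [Submodule.mem_bot]
    exact Subtype.ext h1
  -- the action on `S₂`
  let ρS : GQ →* Module.End O ↥S₂ :=
    { toFun := fun g => (ρΛ g).restrict fun x hx => hS₂st g x hx
      map_one' := by
        ext x
        simp [LinearMap.restrict_apply]
      map_mul' := fun g h => by
        ext x
        simp [LinearMap.restrict_apply] }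
  have hρS : ∀ g (x : ↥S₂), ((ρS g x : ↥S₂) : Λ) = ρΛ g (x : Λ) := fun _ _ => rfl
  -- the half bound for `S₂` from the rank two piece
  obtain ⟨C, hC⟩ := halfBound_rep (O := O) (G := GQ) (ϖ := (P : O)) hPO hO WP
    (ι := PEmpty.{uκ + 1}) (fun _ => True) (fun _ => Rc) (fun _ => ρc) (fun _ _ => hR)
    (fun _ _ => huP) ↥S₂ ρS (fun i => i.elim) (fun i => i.elim) (fun _ i => i.elim)
    (fun i => i.elim) (fun _ _ => trivial)
    (fun c _ => by
      let incl : ↥S₂ →ₗ[O] ↥E := Submodule.inclusion hS₂E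
      refine ⟨κ, (j.comp incl).comp (eigen (𝔸 := O) (fun i : PEmpty.{uκ + 1} => i.elim) c).subtype,
        ?_, ?_⟩
      · exact (hj.comp (Submodule.inclusion_injective hS₂E)).comp Subtype.val_injective
      · intro g x y hxy k
        have h1 : incl (y : ↥S₂) = ρE g (incl (x : ↥S₂)) := by
          apply Subtype.ext
          rw [hρE]
          change ((y : ↥S₂) : Λ) = ρΛ g ((x : ↥S₂) : Λ)
          rw [hxy]
          rfl
        change j (incl (y : ↥S₂)) k = ρc g (j (incl (x : ↥S₂)) k)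
        rw [h1, hjeq])
  -- conclusion
  have hbot : S₂ = ⊥ :=
    eq_bot_of_inertia_trivial_rep hNP ρT (fun g x => ρΛ g x) π hπρ hπ0 A hfin A0 level hlevρ hlev0
      hord hcoarse hsm B hB hlevsm e hQ S₂ (fun g x => ρS g x) hρS
      (fun x hx => smul_mem_satSub hx)
      (fun τ hτ x => Subtype.ext (hS₂fix τ hτ x x.2)) WP hWP C hC
  exact hS₂ne hbot

/-- **(S-f) as the second clause of `hpiece` of `halfBound_rep_self`**: for an eigen-system `c` of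
a family `t` commuting with `ρΛ`, with `finrank O Λ[c] ≤ 2`: if no nonzero stable `T' ≤ Λ[c]` has
`ρΛ τ = e τ` on `T'` for all `τ ∈ I_P`, then no nonzero stable `T' ≤ Λ[c]` is fixed pointwise by
`I_N`. -/
theorem exists_ne_of_inertiaN_self (hPO : (P : O) ≠ 0)
    (hO : ∀ a : O, a ≠ 0 → Finite (O ⧸ Ideal.span {a}))
    (hNP : N ≠ P) (ρT : GQ → T → T) (ρΛ : GQ →* Module.End O Λ)
    {d : ℕ} (π : Fin d → Λ →ₗ[ℤ_[P]] T)
    (hπρ : ∀ i g x, π i (ρΛ g x) = ρT g (π i x))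
    (hπ0 : ∀ (k : ℕ) (x : Λ), (∀ i, ∃ y : T, π i x = (P : ℤ_[P]) ^ k • y) →
      ∃ z : Λ, x = (P : ℤ_[P]) ^ k • z)
    (A : ∀ k : ℕ, Rep.{0} (ZMod (P ^ k)) GQ) (hfin : ∀ k, Finite (A k))
    (A0 : ∀ k, Submodule (ZMod (P ^ k)) (A k))
    (level : ∀ k, T →+ A k)
    (hlevρ : ∀ k σ x, level k (ρT σ x) = (A k).ρ σ (level k x))
    (hlev0 : ∀ k x, level k x = 0 ↔ ∃ y : T, x = (P : ℤ_[P]) ^ k • y)
    (hord : ∀ k, 0 < k → OrdDatum P N (A k) (A0 k))
    (hcoarse : ∀ k, 0 < k → HasCoarse P (A k) (A0 k))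
    (hsm : ∀ k, ∀ a : A k, IsLC₀ levelsAll (A k) a)
    (B : ℕ) (hB : ∀ k, Nat.card (invG (A k)) ≤ B)
    (hlevsm : ∀ k (a : ℤ_[P]) (x : T), level k (a • x) = a.appr k • level k x)
    (e : GQ → ℤ_[P])
    (hQ : ∀ k, 0 < k → ∀ τ ∈ Iq P, ∀ a ∈ A0 k, (A k).ρ τ a = (e τ).appr k • a)
    {ι : Type*} (t : ι → Module.End O Λ) (hρt : ∀ g i, Commute (ρΛ g) (t i)) (c : ι → O)
    (hrank : Module.finrank O ↥(eigen (𝔸 := O) t c) ≤ 2)
    (hpP : ∀ T' : Submodule O Λ, T' ≤ eigen (𝔸 := O) t c → (∀ g : GQ, ∀ x ∈ T', ρΛ g x ∈ T') →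
      T' ≠ ⊥ → ∃ τ ∈ Iq P, ∃ x ∈ T', ρΛ τ x ≠ algebraMap ℤ_[P] O (e τ) • x)
    (T' : Submodule O Λ) (hT : T' ≤ eigen (𝔸 := O) t c)
    (hst : ∀ g : GQ, ∀ x ∈ T', ρΛ g x ∈ T') (hne : T' ≠ ⊥) :
    ∃ s ∈ Iq N, ∃ x ∈ T', ρΛ s x ≠ x := by
  classical
  let E : Submodule O Λ := eigen (𝔸 := O) t c
  have hEsat : ∀ x : Λ, (P : O) • x ∈ E → x ∈ E := fun x hx =>
    mem_eigen_of_smul_mem (𝔸 := O) hPO hx
  let ρE : GQ →* Module.End O ↥E := restrictEigen ρΛ t hρt c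
  have hρE' : ∀ g (x : ↥E), ((ρE g x : ↥E) : Λ) = ρΛ g (x : Λ) := fun _ _ => rfl
  let WP : Set (GQ × O) := {w | w.1 ∈ Iq P ∧ w.2 = algebraMap ℤ_[P] O (e w.1)}
  let WN : Set (GQ × O) := {w | w.1 ∈ Iq N ∧ w.2 = 1}
  have huP : ∀ S' : Submodule O ↥E, (∀ g, ∀ x ∈ S', ρE g x ∈ S') → S' ≠ ⊥ →
      ∃ w ∈ WP, ∃ x ∈ S', ρE w.1 x ≠ w.2 • x := by
    intro S' hS'st hS'ne
    have h1 : S'.map E.subtype ≤ E := by
      rintro x ⟨y, -, rfl⟩
      exact y.2
    have h2 : ∀ g : GQ, ∀ x ∈ S'.map E.subtype, ρΛ g x ∈ S'.map E.subtype := by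
      rintro g x ⟨y, hy, rfl⟩
      exact ⟨ρE g y, hS'st g y hy, rfl⟩
    have h3 : S'.map E.subtype ≠ ⊥ := by
      intro h
      apply hS'ne
      rw [eq_bot_iff]
      intro y hy
      have h4 : (y : Λ) ∈ S'.map E.subtype := ⟨y, hy, rfl⟩
      rw [h, Submodule.mem_bot] at h4
      rw [Submodule.mem_bot]
      exact Subtype.ext h4
    obtain ⟨τ, hτ, x, ⟨y, hy, rfl⟩, hx⟩ := hpP _ h1 h2 h3
    refine ⟨(τ, algebraMap ℤ_[P] O (e τ)), ⟨hτ, rfl⟩, y, hy, ?_⟩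
    intro h
    apply hx
    exact congrArg (fun z : ↥E => (z : Λ)) h
  let S' : Submodule O ↥E := T'.comap E.subtype
  have hS'st : ∀ g, ∀ x ∈ S', ρE g x ∈ S' := fun g x hx => hst g _ hx
  have hS'ne : S' ≠ ⊥ := by
    intro h
    apply hne
    rw [eq_bot_iff]
    intro x hx
    have h1 : (⟨x, hT hx⟩ : ↥E) ∈ S' := hx
    rw [h, Submodule.mem_bot] at h1
    rw [Submodule.mem_bot]
    exact congrArg (fun z : ↥E => (z : Λ)) h1
  let j : ↥E →ₗ[O] (PUnit.{1} → ↥E) := LinearMap.pi fun _ => LinearMap.id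
  have hj : Injective j := fun x y h => congrFun h PUnit.unit
  obtain ⟨w, ⟨hw1, hw2⟩, x, hx, hxne⟩ :=
    exists_ne_of_inertiaN hPO hO hNP ρT ρΛ π hπρ hπ0 A hfin A0 level hlevρ hlev0 hord hcoarse hsm
      B hB hlevsm e hQ E hEsat ρE hρE' ρE hrank WP (fun w hw => hw) huP j hj (fun g x i => rfl)
      WN (fun τ hτ => ⟨hτ, rfl⟩) S' hS'st hS'ne
  refine ⟨w.1, hw1, (x : Λ), hx, ?_⟩
  intro h
  apply hxne
  rw [hw2, one_smul]
  exact Subtype.ext h

end B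

end Fermat.Agent.S15.KN.RFinal
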