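/-
PROJECT M (S15), block [S], TABLE #1 row 12 (helper13): (S-f)-INST = THE SECOND CLAUSE OF `hpiece` OF
`Struct/Rep.halfBound_rep_self` / `Struct/Final.hinv_of_split` FOR `W_N`, FROM THE SAME CLAUSE
FOR `W_P`.

Frame of the concrete run (chief p44 (C)): `T := ↥(TeisSub N P S)` (helper7), `ρT := rhoT N P S`,
`Λ := O ⊗[ℤ_[P]] T`, `ρ g := (ρT g).baseChange O`, `t i := (f i).baseChange O` for a family `f`
commuting with `ρT`; data of `(Gk, G0red)`: helper18's `KN/GkData`, `P/GkFinal`; `(Q5a)`: helper16.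

* `rho_eq_appr_nsmul` : `(Q5a)` in the shape of `RFinal`;
* **`hpiece_inertiaN`** : `c` any eigen-system with `finrank O Λ[c] ≤ 2`; if no nonzero stable
  `T' ≤ Λ[c]` has `ρ τ = cyc τ` for all `τ ∈ I_P` (rows 9, 10), then no nonzero stable `T' ≤ Λ[c]`
  is fixed pointwise by `I_N`;
* `hpiece_inertiaN'` : the same in helper21's frame (`O` a DVR with finite residue field).
-/
import Fermat.Agent.S15.KN.RFinal
import Fermat.Agent.S15.KN.GkData
import Fermat.Agent.S15.P.Q5a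
import Fermat.Agent.CFT.Local.LatticeHelpers

set_option autoImplicit false
set_option linter.style.haveILetI false
set_option linter.unusedSectionVars false
set_option synthInstance.maxHeartbeats 400000

namespace Fermat.Agent.S15.KN.RGlue

open Function TensorProduct ModularCurve
open Fermat.Agent.S56.Coh Fermat.Agent.CFT.LC Fermat.Agent.CFT.Bridge
  Fermat.Agent.CFT.LocalBridge
open Fermat.Agent.S15.D Fermat.Agent.S15.KN.RChi Fermat.Agent.S15.KN.RSub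
  Fermat.Agent.S15.KN.RTate Fermat.Agent.S15.KN.RPow Fermat.Agent.S15.KN.RTens
  Fermat.Agent.S15.KN.RFinal Fermat.Agent.S15.KN.GkData
open Fermat.Agent.S15.K.Star Fermat.Agent.S15.K.Ord Fermat.Agent.S15.K.Count
open Fermat.Agent.S15.Struct.TateEis Fermat.Agent.S15.P.CycAct
open Fermat.Agent.S15.Struct.Eigen Fermat.Agent.S15.Struct.Rep

variable {N : ℕ} [NeZero N] {P : ℕ} [hP : Fact P.Prime] {S : Set ℕ}

/-- `cycExp` is the `k`-th approximation of the `P`-adic cyclotomic character -/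
theorem cycExp_eq_appr' (k : ℕ) (s : GQ) :
    cycExp P k s =
      (((Fermat.Agent.S30.Algebra.Cyclotomic.cyc P s : ℤ_[P]ˣ) : ℤ_[P])).appr k := by
  change (((((Fermat.Agent.S30.Algebra.Cyclotomic.cyc P s : ℤ_[P]ˣ) : ℤ_[P])).appr k : ℕ) :
    ZMod (P ^ k)).val = _
  rw [ZMod.val_natCast]
  exact Nat.mod_eq_of_lt (PadicInt.appr_lt _ k)

/-- (Q5a) in the shape of `RFinal` -/
theorem rho_eq_appr_nsmul (hPN : ¬ P ∣ N) (hSfin : S.Finite)
    (hS : ∀ r : Nat.Primes, (r : ℕ) ∉ S → ¬ (r : ℕ) ∣ N ∧ (r : ℕ) ≠ P) (k : ℕ)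
    (τ : GQ) (hτ : τ ∈ Iq P) (a : Gk N P k S) (ha : a ∈ G0red N P k S) :
    (Gk N P k S).ρ τ a =
      (((Fermat.Agent.S30.Algebra.Cyclotomic.cyc P τ : ℤ_[P]ˣ) : ℤ_[P])).appr k • a := by
  rw [← cycExp_eq_appr']
  exact Fermat.Agent.S15.P.Q5a.rho_eq_cyc_nsmul hPN
    (Fermat.Agent.S15.P.GkFinal.flagW_Gk hSfin hS) τ hτ a ha

section Main

variable [hN : Fact N.Prime]
  {O : Type*} [CommRing O] [Algebra ℤ_[P] O] [IsDomain O] [IsPrincipalIdealRing O]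
  [Module.Free ℤ_[P] O] [Module.Finite ℤ_[P] O]

/-- the Galois action on `O ⊗ TeisSub` -/
noncomputable def rhoBC (N : ℕ) [NeZero N] (P : ℕ) [Fact P.Prime] (S : Set ℕ) (O : Type*)
    [CommRing O] [Algebra ℤ_[P] O] :
    GQ →* Module.End O (O ⊗[ℤ_[P]] ↥(TeisSub N P S)) :=
  ((Module.End.baseChangeHom ℤ_[P] O ↥(TeisSub N P S)).toRingHom :
    Module.End ℤ_[P] ↥(TeisSub N P S) →* Module.End O (O ⊗[ℤ_[P]] ↥(TeisSub N P S))).comp
    (rhoT N P S)

theorem rhoBC_apply (g : GQ) : rhoBC N P S O g = (rhoT N P S g).baseChange O := rfl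

/-- **TABLE #1 row 12.** -/
theorem hpiece_inertiaN (hN5 : 5 ≤ N) (hNP : N ≠ P) (hSfin : S.Finite)
    (hS : ∀ r : Nat.Primes, (r : ℕ) ∉ S → ¬ (r : ℕ) ∣ N ∧ (r : ℕ) ≠ P)
    (hPO : (P : O) ≠ 0) (hO : ∀ a : O, a ≠ 0 → Finite (O ⧸ Ideal.span {a}))
    {ι : Type*} (f : ι → Module.End ℤ_[P] ↥(TeisSub N P S))
    (hfρ : ∀ g i, Commute (rhoT N P S g) (f i)) (c : ι → O)
    (hrank : Module.finrank O ↥(eigen (𝔸 := O) (fun i => (f i).baseChange O) c) ≤ 2)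
    (hpP : ∀ T : Submodule O (O ⊗[ℤ_[P]] ↥(TeisSub N P S)),
      T ≤ eigen (𝔸 := O) (fun i => (f i).baseChange O) c →
      (∀ g : GQ, ∀ x ∈ T, (rhoT N P S g).baseChange O x ∈ T) → T ≠ ⊥ →
      ∃ τ ∈ Iq P, ∃ x ∈ T, (rhoT N P S τ).baseChange O x ≠
        algebraMap ℤ_[P] O
          (((Fermat.Agent.S30.Algebra.Cyclotomic.cyc P τ : ℤ_[P]ˣ) : ℤ_[P])) • x)
    (T : Submodule O (O ⊗[ℤ_[P]] ↥(TeisSub N P S)))
    (hT : T ≤ eigen (𝔸 := O) (fun i => (f i).baseChange O) c)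
    (hst : ∀ g : GQ, ∀ x ∈ T, (rhoT N P S g).baseChange O x ∈ T) (hne : T ≠ ⊥) :
    ∃ s ∈ Iq N, ∃ x ∈ T, (rhoT N P S s).baseChange O x ≠ x := by
  have hfinT := finite_Teis N P S
  have hfreeT := free_Teis N P S
  have hPN : ¬ P ∣ N := fun hd =>
    hNP ((Nat.prime_dvd_prime_iff_eq hP.out hN.out).1 hd).symm
  exact exists_ne_of_inertiaN_self (Λ := O ⊗[ℤ_[P]] ↥(TeisSub N P S)) hPO hO hNP
    (fun g x => rhoT N P S g x) (rhoBC N P S O)
    (coordProj (T := ↥(TeisSub N P S)) (Module.finBasis ℤ_[P] O))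
    (fun i g x => coordProj_baseChange _ (rhoT N P S g) i x)
    (fun k x h => exists_eq_smul_of_coordProj _ ((P : ℤ_[P]) ^ k) x h)
    (fun k => Gk N P k S)
    (fun k => by
      have : NeZero (P ^ k) := ⟨pow_ne_zero _ hP.out.ne_zero⟩
      exact finite_Gk)
    (fun k => G0red N P k S)
    (fun k => level N P S k) (fun k σ x => level_rhoT N P S k σ x)
    (fun k x => level_eq_zero_iff N P S k x)
    (fun k _ => Fermat.Agent.S15.P.GkFinal.ordDatum_Gk hPN hSfin hS)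
    (fun k _ => hasCoarse_Gk hPN hSfin hS k)
    (fun k a => hsm_Gk k a)
    (Nat.card ↥(AddCommGroup.torsion ↥(FixedPoints.addSubgroup GQ (JZero N))))
    (fun k => hB_Gk hN5 k)
    (fun k a x => level_smul N P S k a x)
    (fun τ => ((Fermat.Agent.S30.Algebra.Cyclotomic.cyc P τ : ℤ_[P]ˣ) : ℤ_[P]))
    (fun k _ τ hτ a ha => rho_eq_appr_nsmul hPN hSfin hS k τ hτ a ha)
    (fun i => (f i).baseChange O)
    (fun g i => (hfρ g i).map (Module.End.baseChangeHom ℤ_[P] O ↥(TeisSub N P S)))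
    c hrank hpP T hT hst hne

end Main

section DVR

variable [hN : Fact N.Prime]
  {O : Type} [CommRing O] [IsDomain O] [IsDiscreteValuationRing O]
  [Finite (IsLocalRing.ResidueField O)] [CharZero O] [Algebra ℤ_[P] O] [Module.Free ℤ_[P] O]
  [Module.Finite ℤ_[P] O]

/-- **TABLE #1 row 12 in the frame of `Struct/Final`** (`O` a discrete valuation ring of
characteristic zero with finite residue field, the output of `(SPLIT)`). -/
theorem hpiece_inertiaN' (hN5 : 5 ≤ N) (hNP : N ≠ P) (hSfin : S.Finite)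
    (hS : ∀ r : Nat.Primes, (r : ℕ) ∉ S → ¬ (r : ℕ) ∣ N ∧ (r : ℕ) ≠ P)
    {ι : Type} (f : ι → Module.End ℤ_[P] ↥(TeisSub N P S))
    (hfρ : ∀ g i, Commute (rhoT N P S g) (f i)) (c : ι → O)
    (hrank : Module.finrank O ↥(eigen (𝔸 := O) (fun i => (f i).baseChange O) c) ≤ 2)
    (hpP : ∀ T : Submodule O (O ⊗[ℤ_[P]] ↥(TeisSub N P S)),
      T ≤ eigen (𝔸 := O) (fun i => (f i).baseChange O) c →
      (∀ g : GQ, ∀ x ∈ T, (rhoT N P S g).baseChange O x ∈ T) → T ≠ ⊥ →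
      ∃ τ ∈ Iq P, ∃ x ∈ T, (rhoT N P S τ).baseChange O x ≠
        algebraMap ℤ_[P] O
          (((Fermat.Agent.S30.Algebra.Cyclotomic.cyc P τ : ℤ_[P]ˣ) : ℤ_[P])) • x)
    (T : Submodule O (O ⊗[ℤ_[P]] ↥(TeisSub N P S)))
    (hT : T ≤ eigen (𝔸 := O) (fun i => (f i).baseChange O) c)
    (hst : ∀ g : GQ, ∀ x ∈ T, (rhoT N P S g).baseChange O x ∈ T) (hne : T ≠ ⊥) :
    ∃ s ∈ Iq N, ∃ x ∈ T, (rhoT N P S s).baseChange O x ≠ x :=
  hpiece_inertiaN hN5 hNP hSfin hS (Nat.cast_ne_zero.2 hP.out.ne_zero)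
    (fun a ha => Fermat.Agent.CFT.Local.LatticeHelpers.finite_quotient_span a ha)
    f hfρ c hrank hpP T hT hst hne

end DVR

end Fermat.Agent.S15.KN.RGlue
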