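/-
PROJECT M (S15 chain), block [S], leaf (S-e) `EisExclCore` (helper1; branch-only), MATHLIB ONLY:
**NO SEQUENCE OF SIZE `O(n)` HAS EISENSTEIN HECKE EIGENVALUES.**

`a : ℕ → ℂ` with `‖a n‖ ≤ C n`, and for every prime `l` outside a finite set `S` and every `n`
prime to `l`: `a (n l) = (1 + l) a n` (the relation `a_{ln} = λ_l a_n` of a `T_l`-eigenform with
`λ_l = 1 + l`).  Then `a m = 0` for every `m ≥ 1`.

Proof: if `a m ≠ 0` then `a (m ∏_{l ∈ L} l) = a m ∏_{l ∈ L} (1 + l)` for every finite set `L` of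
primes outside `S` and prime to `m`, so `‖a m‖ ∑_{l ∈ L} 1/l ≤ ‖a m‖ ∏ (1 + 1/l) ≤ C m`:
the sum of the reciprocals of the primes would converge.  No multiplicity one, no `a_1 ≠ 0`.
-/
import Mathlib

set_option autoImplicit false

namespace Fermat.Agent.S15.KN.EisExclCore

open Finset

/-- `1 + ∑ x ≤ ∏ (1 + x)` for nonnegative reals -/
theorem one_add_sum_le_prod {ι : Type*} (L : Finset ι) (x : ι → ℝ) (hx : ∀ i ∈ L, 0 ≤ x i) :
    1 + ∑ i ∈ L, x i ≤ ∏ i ∈ L, (1 + x i) := by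
  classical
  induction L using Finset.induction_on with
  | empty => simp
  | insert i L hi ih =>
    rw [Finset.sum_insert hi, Finset.prod_insert hi]
    have hxi : 0 ≤ x i := hx i (Finset.mem_insert_self i L)
    have ih' := ih fun j hj => hx j (Finset.mem_insert_of_mem hj)
    have hs : 0 ≤ ∑ j ∈ L, x j := Finset.sum_nonneg fun j hj => hx j (Finset.mem_insert_of_mem hj)
    calc 1 + (x i + ∑ j ∈ L, x j) ≤ (1 + x i) * (1 + ∑ j ∈ L, x j) := by nlinarith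
      _ ≤ (1 + x i) * ∏ j ∈ L, (1 + x j) := by
        exact mul_le_mul_of_nonneg_left ih' (by linarith)

/-- a prime which is not in a finite set of primes does not divide their product -/
theorem not_dvd_prod_primes (L : Finset Nat.Primes) (l : Nat.Primes) (hl : l ∉ L) :
    ¬ (l : ℕ) ∣ ∏ p ∈ L, (p : ℕ) := by
  intro h
  obtain ⟨p, hp, hlp⟩ := (Prime.dvd_finsetProd_iff l.2.prime _).mp h
  have : (l : ℕ) = p := (Nat.prime_dvd_prime_iff_eq l.2 p.2).mp hlp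
  exact hl (by rwa [Subtype.ext this])

/-- the multiplicative relation along a finite set of good primes -/
theorem apply_mul_prod (a : ℕ → ℂ) (S : Finset ℕ)
    (hrel : ∀ l : ℕ, l.Prime → l ∉ S → ∀ n : ℕ, ¬ l ∣ n → a (n * l) = (1 + (l : ℂ)) * a n)
    (m : ℕ) (L : Finset Nat.Primes)
    (hL : ∀ p ∈ L, (p : ℕ) ∉ S ∧ ¬ (p : ℕ) ∣ m) :
    a (m * ∏ p ∈ L, (p : ℕ)) = (∏ p ∈ L, (1 + ((p : ℕ) : ℂ))) * a m := by
  classical
  induction L using Finset.induction_on with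
  | empty => simp
  | insert l L hl ih =>
    have ih' := ih fun p hp => hL p (Finset.mem_insert_of_mem hp)
    obtain ⟨hlS, hlm⟩ := hL l (Finset.mem_insert_self l L)
    rw [Finset.prod_insert hl, Finset.prod_insert hl]
    have hnd : ¬ (l : ℕ) ∣ m * ∏ p ∈ L, (p : ℕ) := by
      intro h
      rcases (Nat.Prime.dvd_mul l.2).mp h with h1 | h1
      · exact hlm h1
      · exact not_dvd_prod_primes L l hl h1
    have e : m * ((l : ℕ) * ∏ p ∈ L, (p : ℕ)) = (m * ∏ p ∈ L, (p : ℕ)) * (l : ℕ) := by ring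
    rw [e, hrel l l.2 hlS _ hnd, ih']
    ring

/-- **The abstract Eisenstein exclusion.** -/
theorem eq_zero_of_eisenstein (a : ℕ → ℂ) (S : Finset ℕ) (C : ℝ)
    (hbound : ∀ n : ℕ, ‖a n‖ ≤ C * n)
    (hrel : ∀ l : ℕ, l.Prime → l ∉ S → ∀ n : ℕ, ¬ l ∣ n → a (n * l) = (1 + (l : ℂ)) * a n)
    (m : ℕ) (hm : m ≠ 0) : a m = 0 := by
  classical
  by_contra ham
  have hpos : 0 < ‖a m‖ := norm_pos_iff.mpr ham
  -- the bad primes
  set Bad : Finset ℕ := S ∪ m.primeFactors with hBad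
  have hgood : ∀ p : Nat.Primes, (p : ℕ) ∉ Bad → (p : ℕ) ∉ S ∧ ¬ (p : ℕ) ∣ m := by
    intro p hp
    rw [hBad, Finset.mem_union, not_or] at hp
    refine ⟨hp.1, fun hd => hp.2 ?_⟩
    exact Nat.mem_primeFactors.mpr ⟨p.2, hd, hm⟩
  -- the key bound
  have key : ∀ L : Finset Nat.Primes, (∀ p ∈ L, (p : ℕ) ∉ Bad) →
      ∑ p ∈ L, (1 / ((p : ℕ) : ℝ)) ≤ C * m / ‖a m‖ := by
    intro L hL
    have h1 := apply_mul_prod a S hrel m L fun p hp => hgood p (hL p hp)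
    have h2 := hbound (m * ∏ p ∈ L, (p : ℕ))
    rw [h1, norm_mul, norm_prod] at h2
    have h3 : ∀ p ∈ L, ‖(1 + ((p : ℕ) : ℂ))‖ = 1 + ((p : ℕ) : ℝ) := by
      intro p _
      have : (1 + ((p : ℕ) : ℂ)) = (((1 + (p : ℕ) : ℕ)) : ℂ) := by push_cast; ring
      rw [this, Complex.norm_natCast]
      push_cast
      ring
    rw [Finset.prod_congr rfl h3] at h2
    have hPpos : (0 : ℝ) < ∏ p ∈ L, ((p : ℕ) : ℝ) :=
      Finset.prod_pos fun p _ => by exact_mod_cast p.2.pos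
    have h4 : ∏ p ∈ L, (1 + ((p : ℕ) : ℝ)) =
        (∏ p ∈ L, ((p : ℕ) : ℝ)) * ∏ p ∈ L, (1 + 1 / ((p : ℕ) : ℝ)) := by
      rw [← Finset.prod_mul_distrib]
      refine Finset.prod_congr rfl fun p _ => ?_
      have hp0 : ((p : ℕ) : ℝ) ≠ 0 := by exact_mod_cast p.2.ne_zero
      field_simp
      ring
    have h5 : ((m * ∏ p ∈ L, (p : ℕ) : ℕ) : ℝ) = (m : ℝ) * ∏ p ∈ L, ((p : ℕ) : ℝ) := by
      push_cast
      ring
    rw [h4, h5] at h2
    -- cancel the product of the primes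
    have h6 : (∏ p ∈ L, (1 + 1 / ((p : ℕ) : ℝ))) * ‖a m‖ ≤ C * m := by
      have h7 : (∏ p ∈ L, ((p : ℕ) : ℝ)) * ((∏ p ∈ L, (1 + 1 / ((p : ℕ) : ℝ))) * ‖a m‖) ≤
          (∏ p ∈ L, ((p : ℕ) : ℝ)) * (C * m) := by
        calc (∏ p ∈ L, ((p : ℕ) : ℝ)) * ((∏ p ∈ L, (1 + 1 / ((p : ℕ) : ℝ))) * ‖a m‖)
            = (∏ p ∈ L, ((p : ℕ) : ℝ)) * (∏ p ∈ L, (1 + 1 / ((p : ℕ) : ℝ))) * ‖a m‖ := by ring
          _ ≤ C * ((m : ℝ) * ∏ p ∈ L, ((p : ℕ) : ℝ)) := h2
          _ = (∏ p ∈ L, ((p : ℕ) : ℝ)) * (C * m) := by ring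
      exact le_of_mul_le_mul_left h7 hPpos
    have h8 := one_add_sum_le_prod L (fun p => 1 / ((p : ℕ) : ℝ)) fun p _ => by positivity
    have h9 : ∑ p ∈ L, (1 / ((p : ℕ) : ℝ)) ≤ ∏ p ∈ L, (1 + 1 / ((p : ℕ) : ℝ)) := by linarith
    rw [le_div_iff₀ hpos]
    exact (mul_le_mul_of_nonneg_right h9 hpos.le).trans h6
  -- summability of the reciprocals of the primes: contradiction
  apply Nat.Primes.not_summable_one_div
  set BadP : Finset Nat.Primes := Bad.subtype Nat.Prime with hBadP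
  refine summable_of_sum_le (c := (∑ p ∈ BadP, (1 / ((p : ℕ) : ℝ))) + C * m / ‖a m‖)
    (fun p => by positivity) fun u => ?_
  have hsplit : ∑ p ∈ u, (1 / ((p : ℕ) : ℝ)) =
      ∑ p ∈ u ∩ BadP, (1 / ((p : ℕ) : ℝ)) + ∑ p ∈ u \ BadP, (1 / ((p : ℕ) : ℝ)) := by
    rw [← Finset.sum_union (Finset.disjoint_of_subset_left Finset.inter_subset_right
      Finset.disjoint_sdiff), Finset.union_comm, Finset.sdiff_union_inter]
  rw [hsplit]
  refine add_le_add ?_ ?_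
  · exact Finset.sum_le_sum_of_subset_of_nonneg Finset.inter_subset_right
      fun p _ _ => by positivity
  · refine key _ fun p hp => ?_
    rw [Finset.mem_sdiff] at hp
    intro hpB
    exact hp.2 (Finset.mem_subtype.mpr hpB)

end Fermat.Agent.S15.KN.EisExclCore
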