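/-
PROJECT M (S15 chain), block [S], leaf (S-e) `EisExcl` (helper1; branch-only):
**NO NONZERO CUSP FORM OF WEIGHT 2 ON `Γ₀(N)` HAS THE EISENSTEIN HECKE EIGENVALUES `1 + ℓ`.**

* `norm_qCoeff_le` : Hecke's bound in the form `∃ C, ∀ n, ‖a_n(f)‖ ≤ C n` (Mathlib's
  `CuspFormClass.qExpansion_isBigO` at `k = 2`, `Γ₀(N)` has strict width `1`);
* `eq_zero_of_eisenstein_eigen` : `f ∈ S₂(Γ₀(N))` with `T_ℓ f = (1 + ℓ) f` for all primes
  `ℓ ∤ N` outside a finite set `S` is zero (`EisExclCore.eq_zero_of_eisenstein`; no multiplicity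
  one, no normalisation);
* `anemicEigenspace_eisenstein_eq_bot` : the same in the vocabulary of `S35/OccursAt`.
-/
import Mathlib
import Fermat.Agent.S15.KN.EisExclCore
import Fermat.Agent.S30.Eigen.MultOne
import Fermat.Agent.S35.OccursAt

set_option autoImplicit false
set_option linter.unusedSectionVars false

namespace Fermat.Agent.S15.KN.EisExcl

open CuspForm CongruenceSubgroup ModularFormClass Asymptotics Filter
open Fermat.Agent.S30.Eigen.MultOne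

variable {N : ℕ} [NeZero N]

/-- **Hecke's bound** for a cusp form of weight `2` on `Γ₀(N)`, all `n`. -/
theorem norm_qCoeff_le (f : CuspForm (Gamma0 N) 2) :
    ∃ C : ℝ, ∀ n : ℕ, ‖qCoeff ⇑f n‖ ≤ C * n := by
  have hO := CuspFormClass.qExpansion_isBigO (k := 2)
    (Γ := (Gamma0 N : Subgroup (Matrix.GeneralLinearGroup (Fin 2) ℝ))) f
  rw [CongruenceSubgroup.strictWidthInfty_Gamma0] at hO
  have hz : ∀ x : ℕ, ((x : ℝ) ^ (((2 : ℤ) : ℝ) / 2)) = 0 →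
      (UpperHalfPlane.qExpansion 1 ⇑f).coeff x = 0 := by
    intro x hx
    have hx0 : x = 0 := by
      by_contra hne
      have hpos : (0 : ℝ) < (x : ℝ) := by exact_mod_cast Nat.pos_of_ne_zero hne
      exact (Real.rpow_pos_of_pos hpos _).ne' hx
    subst hx0
    exact qCoeff_cusp_zero f
  obtain ⟨C, hC⟩ := (isBigO_nat_atTop_iff hz).mp hO
  refine ⟨C, fun n => ?_⟩
  have h := hC n
  have e : ‖((n : ℝ) ^ (((2 : ℤ) : ℝ) / 2))‖ = (n : ℝ) := by
    have : (((2 : ℤ) : ℝ) / 2) = 1 := by norm_num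
    rw [this, Real.rpow_one, Real.norm_of_nonneg (Nat.cast_nonneg n)]
  rw [e] at h
  exact h

/-- **Eisenstein exclusion**: a cusp form of weight `2` on `Γ₀(N)` with `T_ℓ f = (1 + ℓ) f` for
all primes `ℓ ∤ N` outside a finite set is zero. -/
theorem eq_zero_of_eisenstein_eigen (S : Finset ℕ) (f : CuspForm (Gamma0 N) 2)
    (hf : ∀ (ℓ : ℕ) (hℓ : ℓ.Prime) (hℓN : ¬ ℓ ∣ N), ℓ ∉ S →
      heckeTLin 2 hℓ hℓN f = (1 + (ℓ : ℂ)) • f) : f = 0 := by
  classical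
  obtain ⟨C, hC⟩ := norm_qCoeff_le f
  set S' : Finset ℕ := S ∪ N.primeFactors with hS'
  have hrel : ∀ l : ℕ, l.Prime → l ∉ S' → ∀ n : ℕ, ¬ l ∣ n →
      qCoeff ⇑f (n * l) = (1 + (l : ℂ)) * qCoeff ⇑f n := by
    intro l hl hlS' n hln
    rw [hS', Finset.mem_union, not_or] at hlS'
    have hlN : ¬ l ∣ N := fun hd =>
      hlS'.2 (Nat.mem_primeFactors.mpr ⟨hl, hd, NeZero.ne N⟩)
    have h1 := qCoeff_heckeTLin (k := 2) hl hlN f n
    rw [hf l hl hlN hlS'.1, if_neg hln, add_zero, qCoeff_smul] at h1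
    exact h1.symm
  apply eq_zero_of_qCoeff_eq_zero
  intro n
  rcases Nat.eq_zero_or_pos n with h0 | h0
  · subst h0
    exact qCoeff_cusp_zero f
  · exact Fermat.Agent.S15.KN.EisExclCore.eq_zero_of_eisenstein (fun n => qCoeff ⇑f n) S' C hC
      hrel n h0.ne'

/-- the same in the vocabulary of `S35/OccursAt` -/
theorem anemicEigenspace_eisenstein_eq_bot (S : Finset ℕ) :
    Fermat.Agent.S35.OccursAt.anemicEigenspace N (↑S : Set ℕ) (fun ℓ => 1 + (ℓ : ℂ)) = ⊥ := by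
  rw [eq_bot_iff]
  intro f hf
  rw [Submodule.mem_bot]
  exact eq_zero_of_eisenstein_eigen S f fun ℓ hℓ hℓN hℓS =>
    hf ℓ hℓ hℓN (by simpa using hℓS)

/-- character form: no ring homomorphism `χ : 𝕋 → ℂ` with `χ(T_ℓ) = 1 + ℓ` has a nonzero
eigenvector in `S₂(Γ₀(N))` -/
theorem eq_zero_of_eisenstein_character (S : Finset ℕ)
    (χ : CuspForm.heckeAlgebra N 2 (↑S : Set ℕ) →+* ℂ)
    (hχ : ∀ (ℓ : ℕ) (hℓ : ℓ.Prime) (hℓN : ¬ ℓ ∣ N) (hℓS : ℓ ∉ (↑S : Set ℕ)),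
      χ (CuspForm.heckeAlgebra.T hℓ hℓN hℓS) = 1 + (ℓ : ℂ))
    (f : CuspForm (Gamma0 N) 2)
    (hf : ∀ t : CuspForm.heckeAlgebra N 2 (↑S : Set ℕ),
      (t : Module.End ℂ (CuspForm (Gamma0 N) 2)) f = χ t • f) : f = 0 := by
  refine eq_zero_of_eisenstein_eigen S f fun ℓ hℓ hℓN hℓS => ?_
  have hℓS' : ℓ ∉ (↑S : Set ℕ) := by simpa using hℓS
  have h := hf (CuspForm.heckeAlgebra.T hℓ hℓN hℓS')
  rw [CuspForm.heckeAlgebra.coe_T, hχ ℓ hℓ hℓN hℓS'] at h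
  exact h

end Fermat.Agent.S15.KN.EisExcl
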