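/-
PROJECT M (S15 chain), block [S], leaf (S-e) `EisExclChar` (helper1; branch-only):
**NO CHARACTER OF THE HECKE ALGEBRA OF `S₂(Γ₀(N))` WITH VALUES IN A DOMAIN OF CHARACTERISTIC ZERO
HAS THE EISENSTEIN EIGENVALUES `χ(T_ℓ) = 1 + ℓ`** (all primes `ℓ ∤ N` outside a finite set `S`).

The coefficient ring `𝒪'` is ARBITRARY (`p`-adic rings included: no embedding into `ℂ` is chosen).
Chain: main's `S30.Eigen.H4Final.h4` produces a nonzero joint eigenvector in `L ⊗ M`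
(`M` the Eichler–Shimura lattice, `L` a field over `Frac 𝒪'`); the eigenvalues `1 + ℓ` at the good
primes are RATIONAL, so `S30.Eigen.Transfer.finrank_eigen_baseChange_tower` (`ℤ → ℚ → L` and
`ℤ → ℚ → ℂ`) moves the eigenspace of the good primes to `ℂ ⊗ M`; the Eichler–Shimura isomorphism
`latticeEquiv` turns a nonzero vector there into a nonzero pair of cusp forms with
`T_ℓ f = (1 + ℓ) f`, which `EisExcl.eq_zero_of_eisenstein_eigen` (Hecke's bound) forbids.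
-/
import Mathlib
import Fermat.Agent.S15.KN.EisExcl
import Fermat.Agent.S30.Eigen.H4Final

set_option autoImplicit false
set_option linter.unusedSectionVars false
set_option linter.style.haveILetI false

open scoped TensorProduct

namespace Fermat.Agent.S15.KN.EisExclChar

open CuspForm CongruenceSubgroup ModularCurve ModularCurve.Period
open Fermat.Agent.S30.Eigen.MultOne Fermat.Agent.S30.Eigen.EichlerShimura
open Fermat.Agent.S30.Eigen.Transfer Fermat.Agent.S30.Padic.EigenLattice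
open Fermat.Agent.S30.Hecke.Parabolic

variable (N : ℕ) [NeZero N]

/-- the good primes -/
abbrev Good (S : Finset ℕ) : Type := {l : Nat.Primes // ¬ (l : ℕ) ∣ N ∧ (l : ℕ) ∉ S}

/-- **Over `ℂ`**: no nonzero vector of `ℂ ⊗ M` is a joint eigenvector of the `τ_ℓ`, `ℓ` good, for
the eigenvalues `1 + ℓ`. -/
theorem eigen_complex_eq_bot (S : Finset ℕ) :
    eigen (fun i : Good N S => (tauPar ℤ ℤ N (i.1 : ℕ) i.1.2).baseChange ℂ)
      (fun i : Good N S => algebraMap ℚ ℂ (1 + ((i.1 : ℕ) : ℚ))) = ⊥ := by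
  rw [eq_bot_iff]
  intro x hx
  rw [Submodule.mem_bot]
  rw [mem_eigen] at hx
  -- the pair of cusp forms
  have hpair : ∀ i : Good N S, Prod.map (Tr N 2 i.1) (Tr N 2 i.1) (latticeEquiv N x) =
      (1 + ((i.1 : ℕ) : ℂ)) • latticeEquiv N x := by
    intro i
    rw [← Fermat.Agent.S30.Eigen.H4Final.latticeEquiv_tauPar N i.1 x, hx i, map_smul]
    congr 1
    simp
  have hzero : latticeEquiv N x = 0 := by
    have h1 : (latticeEquiv N x).1 = 0 := by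
      refine Fermat.Agent.S15.KN.EisExcl.eq_zero_of_eisenstein_eigen S _ fun ℓ hℓ hℓN hℓS => ?_
      have h := congrArg Prod.fst (hpair ⟨⟨ℓ, hℓ⟩, hℓN, hℓS⟩)
      rw [Prod.map_fst, Prod.smul_fst, Tr_of_not_dvd N 2 (r := ⟨ℓ, hℓ⟩) hℓN] at h
      exact h
    have h2 : (latticeEquiv N x).2 = 0 := by
      refine Fermat.Agent.S15.KN.EisExcl.eq_zero_of_eisenstein_eigen S _ fun ℓ hℓ hℓN hℓS => ?_
      have h := congrArg Prod.snd (hpair ⟨⟨ℓ, hℓ⟩, hℓN, hℓS⟩)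
      rw [Prod.map_snd, Prod.smul_snd, Tr_of_not_dvd N 2 (r := ⟨ℓ, hℓ⟩) hℓN] at h
      exact h
    exact Prod.ext h1 h2
  exact (latticeEquiv N).map_eq_zero_iff.mp hzero

/-- **Eisenstein exclusion for characters.** -/
theorem no_eisenstein_character (S : Finset ℕ) (𝒪' : Type) [CommRing 𝒪'] [IsDomain 𝒪']
    [CharZero 𝒪'] (χ : CuspForm.heckeAlgebra N 2 (↑S : Set ℕ) →+* 𝒪')
    (hχ : ∀ (ℓ : ℕ) (hℓ : ℓ.Prime) (hℓN : ¬ ℓ ∣ N) (hℓS : ℓ ∉ (↑S : Set ℕ)),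
      χ (CuspForm.heckeAlgebra.T hℓ hℓN hℓS) = 1 + (ℓ : 𝒪')) : False := by
  classical
  obtain ⟨L, iF, iA1, iA2, iST, iFD, c, -, hc, h2⟩ :=
    Fermat.Agent.S30.Eigen.H4Final.h4 N S 𝒪' χ
  -- `L` has characteristic zero
  haveI : CharZero L :=
    charZero_of_injective_algebraMap (FaithfulSMul.algebraMap_injective (FractionRing 𝒪') L)
  -- the eigenspaces of the good primes
  have hL := finrank_eigen_baseChange_tower (R := ℤ) (F₀ := ℚ) (F := L)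
    (fun i : Good N S => tauPar ℤ ℤ N (i.1 : ℕ) i.1.2) (fun i => 1 + ((i.1 : ℕ) : ℚ))
  have hC := finrank_eigen_baseChange_tower (R := ℤ) (F₀ := ℚ) (F := ℂ)
    (fun i : Good N S => tauPar ℤ ℤ N (i.1 : ℕ) i.1.2) (fun i => 1 + ((i.1 : ℕ) : ℚ))
  rw [eigen_complex_eq_bot N S, finrank_bot] at hC
  rw [← hC] at hL
  -- the eigenlattice of `h4` lies in the eigenspace of the good primes
  have hle : eigenLattice
      (fun r : Nat.Primes => (tauPar ℤ ℤ N r r.2).baseChange L) c ≤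
      eigen (fun i : Good N S => (tauPar ℤ ℤ N (i.1 : ℕ) i.1.2).baseChange L)
        (fun i : Good N S => algebraMap ℚ L (1 + ((i.1 : ℕ) : ℚ))) := by
    intro v hv
    rw [mem_eigen]
    intro i
    rw [mem_eigenLattice] at hv
    have hS : (i.1 : ℕ) ∉ (↑S : Set ℕ) := by simpa using i.2.2
    have e : c i.1 = algebraMap ℚ L (1 + ((i.1 : ℕ) : ℚ)) := by
      have h := hc (i.1 : ℕ) i.1.2 i.2.1 hS
      rw [hχ (i.1 : ℕ) i.1.2 i.2.1 hS] at h
      rw [map_add, map_one, map_natCast] at h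
      rw [map_add, map_one, map_natCast]
      exact h
    rw [← e]
    exact hv i.1
  have hmono := Submodule.finrank_mono hle
  rw [h2, hL] at hmono
  omega

/-- the positive form: some good prime has `χ(T_ℓ) ≠ 1 + ℓ` -/
theorem exists_ne_one_add (S : Finset ℕ) (𝒪' : Type) [CommRing 𝒪'] [IsDomain 𝒪']
    [CharZero 𝒪'] (χ : CuspForm.heckeAlgebra N 2 (↑S : Set ℕ) →+* 𝒪') :
    ∃ (ℓ : ℕ) (hℓ : ℓ.Prime) (hℓN : ¬ ℓ ∣ N) (hℓS : ℓ ∉ (↑S : Set ℕ)),
      χ (CuspForm.heckeAlgebra.T hℓ hℓN hℓS) ≠ 1 + (ℓ : 𝒪') := by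
  by_contra hcon
  push Not at hcon
  exact no_eisenstein_character N S 𝒪' χ hcon

/-- the form for an eigen-system given as a function `a : ℕ → 𝒪'` with `a ℓ = χ(T_ℓ)` outside a
finite set `S'` (shape of `S15/Struct/Irred`, hypothesis `hE`) -/
theorem exists_prime_ne_one_add (S : Finset ℕ) (𝒪' : Type) [CommRing 𝒪'] [IsDomain 𝒪']
    [CharZero 𝒪'] (χ : CuspForm.heckeAlgebra N 2 (↑S : Set ℕ) →+* 𝒪') (S' : Finset ℕ)
    (a : ℕ → 𝒪')
    (ha : ∀ (ℓ : ℕ) (hℓ : ℓ.Prime) (hℓN : ¬ ℓ ∣ N) (hℓS : ℓ ∉ (↑S : Set ℕ)), ℓ ∉ S' →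
      a ℓ = χ (CuspForm.heckeAlgebra.T hℓ hℓN hℓS)) :
    ∃ ℓ : ℕ, ℓ.Prime ∧ ℓ ∉ S' ∧ a ℓ ≠ 1 + (ℓ : 𝒪') := by
  classical
  -- shrink the Hecke algebra to the primes outside `S ∪ S'`
  have hsub : ((↑S : Set ℕ)) ⊆ ((↑(S ∪ S') : Finset ℕ) : Set ℕ) := by
    intro x hx
    exact Finset.mem_coe.mpr (Finset.mem_union_left _ (Finset.mem_coe.mp hx))
  let incl : CuspForm.heckeAlgebra N 2 ((↑(S ∪ S') : Finset ℕ) : Set ℕ) →+*
      CuspForm.heckeAlgebra N 2 (↑S : Set ℕ) :=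
    (Subalgebra.inclusion (CuspForm.heckeAlgebra_mono hsub)).toRingHom
  obtain ⟨ℓ, hℓ, hℓN, hℓS, hne⟩ := exists_ne_one_add N (S ∪ S') 𝒪' (χ.comp incl)
  have hℓS1 : ℓ ∉ (↑S : Set ℕ) := fun h => hℓS (hsub h)
  have hℓS' : ℓ ∉ S' := fun h => hℓS (Finset.mem_coe.mpr (Finset.mem_union_right _ h))
  refine ⟨ℓ, hℓ, hℓS', ?_⟩
  rw [ha ℓ hℓ hℓN hℓS1 hℓS']
  have e : incl (CuspForm.heckeAlgebra.T hℓ hℓN hℓS) = CuspForm.heckeAlgebra.T hℓ hℓN hℓS1 :=
    Subtype.ext rfl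
  rw [RingHom.comp_apply, e] at hne
  exact hne

end Fermat.Agent.S15.KN.EisExclChar
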